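import Fermat.Agent.AV.Curve.Places

/-!
# Extension of constants: Riemann–Roch spaces

For `E = L F`, `K` and `L` algebraically closed, the places of `E` are those extended from `F`
(`Setup.ext`) and the new ones, where `x` takes a value outside `K`. A function regular at the new
places is an `L`-combination of functions of `F`, so extension keeps `ℓ(D)`, degree and genus.
-/

set_option autoImplicit false

noncomputable section

open AlgebraicCurve Polynomial IntermediateField Module FermatAgent.AV

namespace FermatAgent.Curve.Jac.Descent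

/-- Regroup a combination along coefficients independent over the small field. -/
theorem exists_regroup {K L : Type*} [Field K] [Field L] [Algebra K L] {ι : Type*} [Fintype ι]
    (l : ι → L) : ∃ (r : ℕ) (b : Fin r → L) (c : ι → Fin r → K),
      LinearIndependent K b ∧ ∀ i, l i = ∑ j, algebraMap K L (c i j) * b j := by
  let V := Submodule.span K (Set.range l)
  have : Module.Finite K V := Module.Finite.span_of_finite K (Set.finite_range l)
  let B := Module.finBasis K V
  refine ⟨_, fun j => (B j : L), fun i j => B.repr ⟨l i, Submodule.subset_span ⟨i, rfl⟩⟩ j,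
    B.linearIndependent.map' V.subtype (Submodule.ker_subtype V), fun i => ?_⟩
  have h := congrArg Subtype.val (B.sum_repr ⟨l i, Submodule.subset_span ⟨i, rfl⟩⟩)
  simp only [Submodule.coe_sum, Submodule.coe_smul, Algebra.smul_def] at h
  exact h.symm

/-- A constant vanishes at a place iff it is zero. -/
theorem ordGE_algebraMap_one_iff {K F : Type*} [Field K] [Field F] [Algebra K F] {v : Place K F}
    {c : K} : OrdGE v 1 (algebraMap K F c) ↔ c = 0 := by
  refine ⟨fun h => ?_, fun h => by rw [h, map_zero]; exact OrdGE.zero⟩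
  by_contra hc
  rw [ordGE_iff_le ((_root_.map_ne_zero _).2 hc), ord_algebraMap hc] at h
  omega

namespace Gen

variable {L E : Type*} [Field L] [Field E] [Algebra L E] [IsFF L E] {Φ : L[X][X]}

/-- The places over the points of the plane curve. -/
theorem exists_place_over (hm : Φ.Monic) (hi : Irreducible Φ) (Q : Gen Φ E) {c η : L}
    (h : pev c η Φ = 0) :
    ∃ w : Place L E, ∀ r : L[X][X], pev c η r = 0 → OrdGE w 1 (pev Q.x Q.y r) := by
  set A : Subring E := (pev (K := L) Q.x Q.y).range
  set π : L[X][X] →+* A := (pev (K := L) Q.x Q.y).rangeRestrict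
  set I : Ideal A := (RingHom.ker (pev (K := L) c η)).map π
  have hI : I ≠ ⊤ := by
    rw [Ne, Ideal.eq_top_iff_one]
    intro h1
    obtain ⟨r, hr, hr1⟩ := (Ideal.mem_map_iff_of_surjective π
      (pev (K := L) Q.x Q.y).rangeRestrict_surjective).1 h1
    have h2 : pev Q.x Q.y (r - 1) = 0 := by
      rw [map_sub, map_one, sub_eq_zero]; exact congrArg Subtype.val hr1
    obtain ⟨q, hq⟩ := (pev_eq_zero_iff hm hi Q.tr Q.root _).1 h2
    have h3 := congrArg (pev c η) hq
    rw [map_sub, map_one, RingHom.mem_ker.1 hr, map_mul, h, zero_mul] at h3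
    simp at h3
  obtain ⟨B, hAB, hB⟩ := Ideal.image_subset_nonunits_valuationSubring I hI
  have hK : ∀ a : L, algebraMap L E a ∈ B := fun a => hAB ⟨C (C a), by simp⟩
  have hmem : ∀ r : L[X][X], pev c η r = 0 → pev Q.x Q.y r ∈ B.nonunits := fun r hr =>
    hB ⟨π r, Ideal.mem_map_of_mem π hr, rfl⟩
  have htop : B ≠ ⊤ := fun htop => by
    obtain ⟨hb, hu⟩ := ValuationSubring.mem_nonunits_iff_exists_mem_maximalIdeal.1
      (hmem (C (X - C c)) (by simp))
    have hz : pev Q.x Q.y (C (X - C c)) ≠ 0 := fun h2 => X_sub_C_ne_zero c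
      (transcendental_iff.1 Q.tr _ (by rwa [pev_C] at h2))
    exact (IsLocalRing.mem_maximalIdeal _).1 hu (isUnit_iff_exists_inv.2
      ⟨⟨(pev Q.x Q.y (C (X - C c)))⁻¹, htop ▸ ValuationSubring.mem_top _⟩,
        Subtype.ext (mul_inv_cancel₀ hz)⟩)
  let w : Place L E := placeOfValuationSubring B hK htop
  refine ⟨w, fun r hr => ?_⟩
  obtain ⟨hb, hu⟩ := ValuationSubring.mem_nonunits_iff_exists_mem_maximalIdeal.1 (hmem r hr)
  exact (ordGE_one_iff_of_mem (v := w) ⟨_, hb⟩).2 hu

end Gen

namespace Setup

variable {K L F E : Type*} [Field K] [Field L] [Field F] [Field E] [Algebra K F] [Algebra L E]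
  [Algebra K L] [Algebra K E] [IsScalarTower K L E]
variable (S : Setup K L F E) [IsAlgClosed K]

omit [IsAlgClosed K] in
theorem pev_map_φ (r : K[X][X]) :
    pev S.Q.x S.Q.y (r.map (mapRingHom (algebraMap K L))) = S.φ (pev S.P.x S.P.y r) := by
  rw [pev_map, ← S.φ_x, ← S.φ_y]
  exact (map_pev (S.φ : F →+* E) S.φ.commutes _ _ r).symm

/-- Functions independent over the small field stay independent. -/
theorem linDisj {n : ℕ} (f : Fin n → F) (hf : LinearIndependent K f) (a : Fin n → L)
    (ha : ∑ i, algebraMap L E (a i) * S.φ (f i) = 0) : a = 0 := by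
  classical
  choose r d hd hdeg hrd using fun i => S.P.exists_rep S.monic S.irr (f i)
  set D := ∏ i, d i
  set p : Fin n → K[X][X] := fun i => r i * C (∏ j ∈ Finset.univ.erase i, d j)
  have hD : aeval S.P.x D ≠ 0 := fun h => (Finset.prod_ne_zero_iff.2 fun i _ => hd i)
    (transcendental_iff.1 S.P.tr _ h)
  have hp : ∀ i, f i * aeval S.P.x D = pev S.P.x S.P.y (p i) := fun i => by
    simp only [p, map_mul, pev_C, ← hrd]
    rw [mul_assoc, ← map_mul, Finset.mul_prod_erase _ _ (Finset.mem_univ i)]
  have hpd : ∀ i, (p i).natDegree < S.Φ.natDegree := fun i =>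
    natDegree_mul_le.trans_lt (by rw [natDegree_C, add_zero]; exact hdeg i)
  obtain ⟨m, b, c, hb, hab⟩ := exists_regroup (K := K) a
  set G : L[X][X] := ∑ i, C (C (a i)) * (p i).map (mapRingHom (algebraMap K L))
  have hG : G = 0 := by
    have hm := S.monic.map (mapRingHom (algebraMap K L))
    refine eq_zero_of_dvd_of_natDegree_lt ((pev_eq_zero_iff hm (irreducible_map S.monic S.irr)
      S.Q.tr S.Q.root _).1 ?_) ?_
    · simp only [G, map_sum, map_mul, pev_CC, S.pev_map_φ, ← hp]
      simp only [← mul_assoc, ← Finset.sum_mul, ha, zero_mul]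
    · rw [S.monic.natDegree_map]
      exact (natDegree_sum_le_of_forall_le _ _ (n := S.Φ.natDegree - 1) fun i _ =>
        (natDegree_C_mul_le _ _).trans (natDegree_map_le.trans (by have := hpd i; omega))).trans_lt
        (by have := Gen.natDegree_pos S.monic S.irr; omega)
  funext i
  rw [hab i]
  refine Finset.sum_eq_zero fun j _ => ?_
  rw [Fintype.linearIndependent_iff.1 hf (fun i => c i j) ?_ i, map_zero, zero_mul]
  have hq : ∑ i, C (C (c i j)) * p i = 0 := by
    ext k l
    refine Fintype.linearIndependent_iff.1 hb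
      (fun j => ((∑ i, C (C (c i j)) * p i).coeff k).coeff l) ?_ j
    have h := congrArg (fun q : L[X][X] => (q.coeff k).coeff l) hG
    simp only [G, finsetSum_coeff, coeff_C_mul, coeff_map, coe_mapRingHom, coeff_zero, hab,
      Finset.sum_mul] at h
    rw [← h, Finset.sum_comm]
    simp only [finsetSum_coeff, coeff_C_mul, Algebra.smul_def, map_sum, map_mul, Finset.sum_mul]
    exact Finset.sum_congr rfl fun j _ => Finset.sum_congr rfl fun i _ => by ring
  have h := congrArg (pev S.P.x S.P.y) hq
  simp only [map_sum, map_mul, pev_CC, map_zero, ← hp, ← mul_assoc, ← Finset.sum_mul,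
    mul_eq_zero, hD, or_false] at h
  simpa [Algebra.smul_def] using h

/-- `E` is a constant field extension of `F`. -/
theorem isConstExt :
    letI := S.φ.toRingHom.toAlgebra
    haveI : IsScalarTower K F E := .of_algebraMap_eq fun a => (S.φ.commutes a).symm
    IsConstExt K F L E := by
  let := S.φ.toRingHom.toAlgebra
  have : IsScalarTower K F E := .of_algebraMap_eq fun a => (S.φ.commutes a).symm
  have hmem : ∀ r : L[X][X], pev S.Q.x S.Q.y r ∈ comb K F L E ⊤ ⊤ := fun r => by
    induction r using Polynomial.induction_on' with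
    | add p q hp hq => rw [map_add]; exact add_mem hp hq
    | monomial m p =>
      rw [← C_mul_X_pow_eq_monomial, map_mul, map_pow, pev_C, pev_X, aeval_eq_sum_range,
        Finset.sum_mul]
      refine sum_mem fun l _ => ?_
      rw [Algebra.smul_def, mul_assoc, ← S.φ_x, ← S.φ_y, ← map_pow, ← map_pow, ← map_mul]
      exact mul_mem (algebraMap_left_mem_comb trivial) (algebraMap_right_mem_comb trivial)
  refine ⟨fun f hf a ha => S.linDisj f hf a ha, fun z => ?_⟩
  obtain ⟨a, b, hb, rfl⟩ := S.Q.gen z
  exact ⟨_, hmem a, _, hmem b, hb, div_mul_cancel₀ _ hb⟩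

variable [IsFF K F] [IsFF L E]

/-- The extended place. -/
def ext (v : Place K F) : Place L E :=
  letI := S.φ.toRingHom.toAlgebra
  haveI : IsScalarTower K F E := .of_algebraMap_eq fun a => (S.φ.commutes a).symm
  S.isConstExt.ext v

/-- The extended place has the same orders on `F`. -/
@[simp] theorem ord_ext (v : Place K F) (f : F) : (S.ext v).ord (S.φ f) = v.ord f :=
  let := S.φ.toRingHom.toAlgebra
  have : IsScalarTower K F E := .of_algebraMap_eq fun a => (S.φ.commutes a).symm
  S.isConstExt.ord_ext_algebraMap v f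

/-- Places extend injectively. -/
theorem ext_injective : Function.Injective S.ext := fun v w h =>
  eq_of_forall_ord_nonneg fun f _ hf => by rwa [← S.ord_ext v, h, S.ord_ext] at hf

theorem ord_φ_eq_zero {w : Place L E} {f : F} (hf : f ≠ 0) (hw : w ∉ Set.range S.ext) :
    w.ord (S.φ f) = 0 :=
  let := S.φ.toRingHom.toAlgebra
  have : IsScalarTower K F E := .of_algebraMap_eq fun a => (S.φ.commutes a).symm
  S.isConstExt.ord_algebraMap_eq_zero hf hw

/-- A finite value of `x` outside the small field. -/
def IsNew (w : Place L E) : Prop :=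
  ∃ c : L, c ∉ Set.range (algebraMap K L) ∧ OrdGE w 1 (S.Q.x - algebraMap L E c)

/-- Every place of `E` is extended from `F` or new. -/
theorem exists_ext_or_isNew [IsAlgClosed L] (w : Place L E) : (∃ v, S.ext v = w) ∨ S.IsNew w := by
  by_cases hr : w ∈ Set.range S.ext
  · exact Or.inl hr
  obtain ⟨c, hc⟩ := exists_sub_algebraMap w (f := S.Q.x)
    (Or.inr (by
      rw [← S.φ_x, S.ord_φ_eq_zero (fun h => S.P.tr (by rw [h]; exact isAlgebraic_zero)) hr]))
  refine Or.inr ⟨c, fun ⟨k, hk⟩ => ?_, hc⟩
  subst hk
  have hne : S.P.x - algebraMap K F k ≠ 0 := fun h =>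
    S.P.tr (sub_eq_zero.1 h ▸ isAlgebraic_algebraMap k)
  rw [← S.φ_x, ← IsScalarTower.algebraMap_apply, ← S.φ.commutes, ← map_sub,
    ordGE_iff_le ((_root_.map_ne_zero _).2 hne), S.ord_φ_eq_zero hne hr] at hc
  omega

/-- Bounds on orders at an extended place. -/
theorem ordGE_ext {v : Place K F} {n : ℤ} {f : F} : OrdGE (S.ext v) n (S.φ f) ↔ OrdGE v n f := by
  simp only [OrdGE, ord_ext, map_eq_zero]

theorem not_isNew_ext (v : Place K F) : ¬S.IsNew (S.ext v) := by
  rintro ⟨c, hc, h⟩
  have hx : OrdGE (S.ext v) 0 S.Q.x := by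
    simpa using (h.mono (m := 0) (by omega)).add (ordGE_algebraMap c)
  rw [← S.φ_x, S.ordGE_ext] at hx
  obtain ⟨k, hk⟩ := exists_sub_algebraMap v hx
  rw [← S.ordGE_ext, map_sub, S.φ.commutes, S.φ_x, IsScalarTower.algebraMap_apply K L E] at hk
  have := h.sub hk
  rw [sub_sub_sub_cancel_left, ← map_sub, ordGE_algebraMap_one_iff, sub_eq_zero] at this
  exact hc ⟨k, this⟩

omit [IsAlgClosed K] [IsFF K F] [IsFF L E] in
theorem φ_aeval (p : K[X]) : S.φ (aeval S.P.x p) = aeval S.Q.x (p.map (algebraMap K L)) := by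
  rw [← aeval_algHom_apply, S.φ_x, aeval_map_algebraMap]

/-- The span of the functions defined over the small field. -/
def defSpan : Submodule L E := Submodule.span L (Set.range S.φ)

omit [IsScalarTower K L E] [IsAlgClosed K] [IsFF K F] [IsFF L E] in
theorem φ_mul_mem_defSpan (g : F) (a : L[X][X]) :
    pev S.Q.x S.Q.y a * S.φ g ∈ S.defSpan := by
  induction a using Polynomial.induction_on' with
  | add p q hp hq => rw [map_add, add_mul]; exact add_mem hp hq
  | monomial n p =>
    rw [← C_mul_X_pow_eq_monomial, map_mul, map_pow, pev_C, pev_X]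
    induction p using Polynomial.induction_on' with
    | add p q hp hq => rw [map_add, add_mul, add_mul]; exact add_mem hp hq
    | monomial m l =>
      rw [aeval_monomial, ← S.φ_x, ← S.φ_y, mul_assoc, mul_assoc, ← map_pow, ← map_pow,
        ← map_mul, ← map_mul, ← Algebra.smul_def]
      exact Submodule.smul_mem _ _ (Submodule.subset_span ⟨_, rfl⟩)

omit [IsScalarTower K L E] [IsFF K F] in
/-- If `h = a (x, y) / d (x)` is regular at the new places and `d` vanishes at a value `c` outside
the small field, then `a` vanishes on the fibre over `c`. -/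
theorem pev_numerator_eq_zero [IsAlgClosed L] {h : E} (hreg : ∀ w, S.IsNew w → OrdGE w 0 h)
    {a : L[X][X]} {d : L[X]} (had : h * aeval S.Q.x d = pev S.Q.x S.Q.y a) {c : L}
    (hc : d.eval c = 0) (hcK : c ∉ Set.range (algebraMap K L)) {η : L}
    (hη : pev c η (S.Φ.map (mapRingHom (algebraMap K L))) = 0) : pev c η a = 0 := by
  obtain ⟨w, hw⟩ := S.Q.exists_place_over (S.monic.map _)
    (irreducible_map (L := L) S.monic S.irr) hη
  have hxc : OrdGE w 1 (S.Q.x - algebraMap L E c) := by
    have h0 := hw (C (X - C c)) (by simp)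
    rw [pev_C] at h0
    convert h0 using 1
    rw [map_sub, aeval_X, aeval_C]
  have h1 : OrdGE w 1 (aeval S.Q.x d) := by
    simpa using hw (C d) (by simpa using hc)
  have h2 : OrdGE w 1 (pev S.Q.x S.Q.y a) := by
    rw [← had]; exact ((hreg w ⟨c, hcK, hxc⟩).mul h1).mono le_rfl
  have h3 : OrdGE w 1 (pev S.Q.x S.Q.y (a - C (C (pev c η a)))) := hw _ (by simp)
  rw [map_sub, pev_CC] at h3
  have h4 := h2.sub h3
  rw [sub_sub_cancel, ordGE_algebraMap_one_iff] at h4
  exact h4

omit [IsScalarTower K L E] [IsFF K F] [IsFF L E] in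
/-- The fibre of the plane curve over a value outside the small field is separable. -/
theorem separable_fibre [CharZero K] {c : L} (hcK : c ∉ Set.range (algebraMap K L)) :
    (S.Φ.map ((evalRingHom c).comp (mapRingHom (algebraMap K L)))).Separable := by
  obtain ⟨u, v, d₁, hd₁, huv⟩ := Gen.exists_bezout_derivative S.monic S.irr
  have h := congrArg (Polynomial.map ((evalRingHom c).comp (mapRingHom (algebraMap K L)))) huv
  rw [Polynomial.map_add, Polynomial.map_mul, Polynomial.map_mul, map_C, ← derivative_map] at h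
  have hne : ((evalRingHom c).comp (mapRingHom (algebraMap K L))) d₁ ≠ 0 := by
    simp only [RingHom.comp_apply, coe_mapRingHom, coe_evalRingHom, eval_map]
    intro h0
    rw [← aeval_def] at h0
    have halg : IsAlgebraic K c := ⟨d₁, hd₁, h0⟩
    have := IntermediateField.isAlgebraic_adjoin_simple halg.isIntegral
    exact hcK (IntermediateField.mem_bot.1
      ((IntermediateField.eq_bot_of_isAlgClosed_of_isAlgebraic K⟮c⟯) ▸
        mem_adjoin_simple_self K c))
  refine ⟨C (((evalRingHom c).comp (mapRingHom (algebraMap K L))) d₁)⁻¹ *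
      u.map ((evalRingHom c).comp (mapRingHom (algebraMap K L))),
    C (((evalRingHom c).comp (mapRingHom (algebraMap K L))) d₁)⁻¹ *
      v.map ((evalRingHom c).comp (mapRingHom (algebraMap K L))), ?_⟩
  rw [mul_assoc, mul_assoc, ← mul_add, h, ← C_mul, inv_mul_cancel₀ hne, C_1]

omit [IsFF K F] in
/-- Functions regular at the new places are combinations of functions over the small field. -/
theorem mem_defSpan [CharZero K] [IsAlgClosed L] {h : E} (hreg : ∀ w, S.IsNew w → OrdGE w 0 h) :
    h ∈ S.defSpan := by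
  classical
  have hΦ := S.monic.map (mapRingHom (algebraMap K L))
  have hirr := irreducible_map (L := L) S.monic S.irr
  set n := (S.Φ.map (mapRingHom (algebraMap K L))).natDegree
  have hex : ∃ k : ℕ, ∃ (a : L[X][X]) (d : L[X]), d ≠ 0 ∧ d.natDegree = k ∧ a.natDegree < n ∧
      h * aeval S.Q.x d = pev S.Q.x S.Q.y a := by
    obtain ⟨a, d, hd, hdeg, had⟩ := S.Q.exists_rep hΦ hirr h
    exact ⟨_, a, d, hd, rfl, hdeg, had⟩
  obtain ⟨a, d, hd, hdk, hdeg, had⟩ := Nat.find_spec hex
  have hroots : ∀ c ∈ d.roots, c ∈ Set.range (algebraMap K L) := by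
    intro c hc
    by_contra hcK
    set Φc := S.Φ.map ((evalRingHom c).comp (mapRingHom (algebraMap K L))) with hΦc
    have hevc : ∀ (η : L) (r : L[X][X]), pev c η r = (r.map (evalRingHom c)).eval η := by
      intro η r
      rw [eval_map, pev, coe_eval₂RingHom]
      congr 1
    have hsep : Φc.Separable := S.separable_fibre hcK
    have hzero : a.map (evalRingHom c) = 0 := by
      refine eq_zero_of_natDegree_lt_card_of_eval_eq_zero' _ Φc.roots.toFinset (fun η hη => ?_) ?_
      · rw [← hevc]
        refine S.pev_numerator_eq_zero hreg had (mem_roots'.1 hc).2 hcK ?_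
        rw [hevc, Polynomial.map_map]
        exact (mem_roots'.1 (Multiset.mem_toFinset.1 hη)).2
      · rw [Multiset.toFinset_card_of_nodup (nodup_roots hsep),
          ← (IsAlgClosed.splits Φc).natDegree_eq_card_roots, hΦc, S.monic.natDegree_map]
        refine natDegree_map_le.trans_lt (hdeg.trans_eq ?_)
        exact S.monic.natDegree_map _
    have hdvd : C (X - C c) ∣ a := by
      rw [C_dvd_iff_dvd_coeff]
      intro i
      rw [dvd_iff_isRoot, IsRoot]
      simpa using congrArg (fun q => q.coeff i) hzero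
    obtain ⟨a₁, rfl⟩ := hdvd
    obtain ⟨e, rfl⟩ := dvd_iff_isRoot.2 (mem_roots'.1 hc).2
    have he : e ≠ 0 := right_ne_zero_of_mul hd
    refine Nat.find_min hex (m := e.natDegree) ?_ ⟨a₁, e, he, rfl, ?_, ?_⟩
    · rw [← hdk, natDegree_mul (X_sub_C_ne_zero c) he, natDegree_X_sub_C]; omega
    · rcases eq_or_ne a₁ 0 with rfl | ha
      · simp only [natDegree_zero]; omega
      · rwa [natDegree_C_mul (X_sub_C_ne_zero c)] at hdeg
    · have hne : aeval S.Q.x (X - C c) ≠ 0 := fun h0 =>
        X_sub_C_ne_zero c (transcendental_iff.1 S.Q.tr _ h0)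
      rw [map_mul, map_mul, pev_C, mul_left_comm] at had
      exact mul_left_cancel₀ hne had
  obtain ⟨d₀, hd₀⟩ : ∃ d₀ : K[X],
      d₀.map (algebraMap K L) = (d.roots.map fun c => X - C c).prod := by
    refine (mem_lifts _).1 (Subsemiring.multiset_prod_mem (lifts (algebraMap K L)) _ fun q hq => ?_)
    obtain ⟨c, hc, rfl⟩ := Multiset.mem_map.1 hq
    obtain ⟨k, rfl⟩ := hroots c hc
    exact ⟨X - C k, by simp⟩
  rw [(IsAlgClosed.splits d).eq_prod_roots, map_mul, aeval_C, ← hd₀, ← S.φ_aeval] at had
  have hd0 : aeval S.P.x d₀ ≠ 0 := fun h0 => by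
    have h1 := transcendental_iff.1 S.P.tr _ h0
    rw [h1, Polynomial.map_zero] at hd₀
    exact (monic_multisetProd_X_sub_C d.roots).ne_zero hd₀.symm
  have hlc : algebraMap L E d.leadingCoeff ≠ 0 :=
    (_root_.map_ne_zero _).2 (leadingCoeff_ne_zero.2 hd)
  have e : h = d.leadingCoeff⁻¹ • (pev S.Q.x S.Q.y a * S.φ (aeval S.P.x d₀)⁻¹) := by
    have := (_root_.map_ne_zero S.φ).2 hd0
    rw [← had, Algebra.smul_def, map_inv₀, map_inv₀]
    field_simp
  rw [e]
  exact Submodule.smul_mem _ _ (S.φ_mul_mem_defSpan _ a)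

/-- Independent coefficients keep the orders. -/
theorem ordGE_of_ordGE_sum {ι : Type*} [Fintype ι] {b : ι → L} (hb : LinearIndependent K b)
    (g : ι → F) (v : Place K F) {n : ℤ}
    (h : OrdGE (S.ext v) n (∑ i, algebraMap L E (b i) * S.φ (g i))) (i : ι) : OrdGE v n (g i) := by
  let := S.φ.toRingHom.toAlgebra
  have : IsScalarTower K F E := .of_algebraMap_eq fun a => (S.φ.commutes a).symm
  set ht := (IsConstExt.exists_uniformizer v).choose_spec
  rw [ordGE_iff_sge ht]
  intro m hm
  set σ := S.isConstExt.series ht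
  have h0 : (σ (∑ i, algebraMap L E (b i) * algebraMap F E (g i))).coeff m = 0 := by
    rcases h with h | h
    · rw [show ∑ i, algebraMap L E (b i) * algebraMap F E (g i) = 0 from h, map_zero]; rfl
    · rw [show S.ext v = S.isConstExt.ext v from rfl, IsConstExt.ord_ext] at h
      exact sge_order _ m (hm.trans_le h)
  rw [map_sum, HahnSeries.coeff_sum] at h0
  have h1 : ∑ i, (expand ht (g i)).coeff m • b i = 0 := by
    rw [← h0]
    refine Finset.sum_congr rfl fun i _ => ?_
    rw [map_mul, AlgHom.commutes, IsConstExt.series_algebraMap, algebraMap_laurent,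
      HahnSeries.coeff_single_zero_mul, coeff_mapSeries, Algebra.smul_def]
    simp [mul_comm]
  exact Fintype.linearIndependent_iff.1 hb _ h1 i

/-- Extension of divisors. -/
def extDiv : Divisor K F →+ Divisor L E := Finsupp.mapDomain.addMonoidHom S.ext

/-- The multiplicity at an extended place. -/
@[simp] theorem extDiv_apply_ext (D : Divisor K F) (v : Place K F) :
    S.extDiv D (S.ext v) = D v :=
  Finsupp.mapDomain_apply S.ext_injective D v

/-- Extended divisors avoid the new places. -/
theorem extDiv_apply_of_isNew (D : Divisor K F) {w : Place L E} (hw : S.IsNew w) :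
    S.extDiv D w = 0 :=
  Finsupp.mapDomain_of_notMem_range D w fun ⟨v, hv⟩ => S.not_isNew_ext v (hv ▸ hw)

theorem φ_mem_riemannRochSpace {D : Divisor K F} {f : F} (hf : f ∈ riemannRochSpace D) :
    S.φ f ∈ riemannRochSpace (S.extDiv D) :=
  let := S.φ.toRingHom.toAlgebra
  have : IsScalarTower K F E := .of_algebraMap_eq fun a => (S.φ.commutes a).symm
  S.isConstExt.mem_riemannRochSpace_extDiv hf

/-- `ℓ(D)` is unchanged by extension of constants. -/
theorem rrDim_extDiv [CharZero K] [IsAlgClosed L] (D : Divisor K F) :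
    rrDim (S.extDiv D) = rrDim D := by
  classical
  let B := Module.finBasis K (riemannRochSpace D)
  let f : Fin (finrank K (riemannRochSpace D)) → F := fun i => (B i : F)
  have hf : LinearIndependent K f :=
    B.linearIndependent.map' (riemannRochSpace D).subtype (Submodule.ker_subtype _)
  have hspan : riemannRochSpace (S.extDiv D) ≤ Submodule.span L (Set.range fun i => S.φ (f i)) := by
    intro h hh
    rw [mem_riemannRochSpace] at hh
    have hmem := S.mem_defSpan (h := h) fun w hw => by
      simpa [S.extDiv_apply_of_isNew D hw] using hh w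
    rw [defSpan, Finsupp.mem_span_range_iff_exists_finsupp] at hmem
    obtain ⟨l, hl⟩ := hmem
    obtain ⟨r, b, c, hb, hlb⟩ := exists_regroup (K := K) fun g : l.support => l g
    have hsum : h = ∑ j, algebraMap L E (b j) * S.φ (∑ g : l.support, c g j • (g : F)) := by
      rw [← hl, Finsupp.sum, ← Finset.sum_coe_sort]
      simp only [map_sum, map_smul, Finset.mul_sum]
      rw [Finset.sum_comm]
      refine Finset.sum_congr rfl fun g _ => ?_
      rw [hlb g, Finset.sum_smul]
      refine Finset.sum_congr rfl fun j _ => ?_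
      rw [Algebra.smul_def, Algebra.smul_def, map_mul (algebraMap L E),
        IsScalarTower.algebraMap_apply K L E]
      ring
    rw [hsum]
    refine Submodule.sum_mem _ fun j _ => ?_
    have hg : ∑ g : l.support, c g j • (g : F) ∈ riemannRochSpace D := by
      rw [mem_riemannRochSpace]
      intro v
      refine S.ordGE_of_ordGE_sum hb (fun j => ∑ g : l.support, c g j • (g : F)) v ?_ j
      rw [← hsum]
      simpa using hh (S.ext v)
    obtain ⟨g, hgB⟩ : ∃ g : riemannRochSpace D, (g : F) = ∑ g : l.support, c g j • (g : F) :=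
      ⟨⟨_, hg⟩, rfl⟩
    rw [← hgB, ← Algebra.smul_def, ← B.sum_repr g, Submodule.coe_sum, map_sum]
    refine Submodule.smul_mem _ _ (Submodule.sum_mem _ fun i _ => ?_)
    rw [Submodule.coe_smul, map_smul, ← algebraMap_smul L]
    exact Submodule.smul_mem _ _ (Submodule.subset_span ⟨i, rfl⟩)
  have hle : Submodule.span L (Set.range fun i => S.φ (f i)) ≤ riemannRochSpace (S.extDiv D) := by
    rw [Submodule.span_le]
    rintro _ ⟨i, rfl⟩
    exact S.φ_mem_riemannRochSpace (B i).2
  have hli : LinearIndependent L fun i => S.φ (f i) :=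
    Fintype.linearIndependent_iff.2 fun a ha i => congrFun
      (S.linDisj f hf a (by simpa [Algebra.smul_def] using ha)) i
  rw [rrDim, rrDim, le_antisymm hspan hle, finrank_span_eq_card hli, Fintype.card_fin]

/-- The degree is unchanged by extension of constants. -/
theorem degree_extDiv (D : Divisor K F) : Divisor.degree (S.extDiv D) = Divisor.degree D :=
  let := S.φ.toRingHom.toAlgebra
  have : IsScalarTower K F E := .of_algebraMap_eq fun a => (S.φ.commutes a).symm
  S.isConstExt.degree_extDiv D

include S in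
/-- The genus is unchanged by extension of constants. -/
theorem rGenus_eq [CharZero K] [IsAlgClosed L] : rGenus L E = rGenus K F := by
  obtain ⟨c₁, h₁⟩ := exists_rrDim_eq (K := K) (F := F)
  obtain ⟨c₂, h₂⟩ := exists_rrDim_eq (K := L) (F := E)
  obtain ⟨v⟩ : Nonempty (Place K F) := ⟨(exists_place_ord_pos (K := K) S.P.tr).choose⟩
  have := finite_residueField v
  set D : Divisor K F := Finsupp.single v (max c₁ c₂)
  have hdeg : Divisor.degree D = max c₁ c₂ := by
    simp [D, v.deg_eq_one_of_isAlgClosed_of_finite]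
  have e₁ := h₁ D (by omega)
  have e₂ := h₂ (S.extDiv D) (by rw [S.degree_extDiv, hdeg]; omega)
  rw [S.rrDim_extDiv, S.degree_extDiv] at e₂
  omega

/-- The divisor of `f` extends to the divisor of `f`. -/
theorem extDiv_divisorOf {f : F} (hf : f ≠ 0) :
    S.extDiv (divisorOf f) = divisorOf (S.φ f) := by
  refine Finsupp.ext fun w => ?_
  by_cases hw : w ∈ Set.range S.ext
  · obtain ⟨v, rfl⟩ := hw
    simp
  · rw [divisorOf_apply, S.ord_φ_eq_zero hf hw]
    exact Finsupp.mapDomain_of_notMem_range _ _ hw

end Setup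

end FermatAgent.Curve.Jac.Descent
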