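import Fermat.Agent.Curve.Jac.Genus
import Fermat.Agent.Curve.Jac.Descent.Spaces

/-!
# Extension of constants on divisor classes and reduced torsion divisors

Every torsion class is `A - m O` for exactly one divisor `A ≥ 0` with `ℓ(A) = 1`, `ℓ(A - O) = 0`,
and extension of constants is injective on `Pic⁰` and preserves these reduced divisors.
-/

set_option autoImplicit false

noncomputable section

open AlgebraicCurve Polynomial Module

namespace FermatAgent.Curve.Jac.Descent

section Basic

variable {K F : Type*} [Field K] [Field F] [Algebra K F] [IsFF K F]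

theorem rrDim_pos_of_isPrincipal {D : Divisor K F}
    (h : D ∈ Divisor.principal (K := K) (F := F)) : 0 < rrDim (-D) := by
  obtain ⟨f, hf, hD⟩ := h
  have hmem : f ∈ riemannRochSpace (-D) := by
    rw [mem_riemannRochSpace]
    exact fun v => Or.inr (by simp [hD v])
  exact Module.finrank_pos_iff_exists_ne_zero.2
    ⟨⟨f, hmem⟩, fun h => hf (congrArg Subtype.val h)⟩

theorem isPrincipal_of_rrDim_pos {D : Divisor K F} (hdeg : Divisor.degree D = 0)
    (h : 0 < rrDim (-D)) : D ∈ Divisor.principal (K := K) (F := F) := by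
  obtain ⟨f, hf⟩ := Module.finrank_pos_iff_exists_ne_zero.1 h
  have hf0 : (f : F) ≠ 0 := fun h0 => hf (Subtype.ext h0)
  have hD := divisorOf_eq_neg_of_mem (by rw [map_neg, hdeg, neg_zero]) hf0 f.2
  rw [neg_neg] at hD
  exact ⟨f, hf0, fun v => by rw [← divisorOf_apply (f : F) v, hD]⟩

variable [IsAlgClosed K]

/-- `A` is reduced with base point `O` and an `n`-torsion class `A - m O`. -/
def IsRed (n : ℕ) (O : Place K F) (A : Divisor K F) : Prop :=
  0 ≤ A ∧ rrDim A = 1 ∧
    (n : ℤ) • (A - Finsupp.single O (Divisor.degree A)) ∈ Divisor.principal (K := K) (F := F) ∧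
    rrDim (A - Finsupp.single O 1) = 0

/-- The class of `A - m O`. -/
def redClass (O : Place K F) (A : Divisor K F) : Pic0 K F :=
  Pic0.mk ⟨A - Finsupp.single O (Divisor.degree A), by
    rw [Divisor.mem_degZero, map_sub, degree_single_eq, sub_self]⟩

/-- The class of a reduced torsion divisor is torsion. -/
theorem IsRed.mem_torsion {n : ℕ} {O : Place K F} {A : Divisor K F} (h : IsRed n O A) :
    redClass O A ∈ Pic0.torsion K F n := by
  rw [Pic0.mem_torsion]
  refine (QuotientAddGroup.eq_zero_iff _).2 ?_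
  rw [AddSubgroup.mem_addSubgroupOf]
  exact h.2.2.1

/-- Reduced divisors are determined by their classes. -/
theorem eq_of_redClass_eq {O : Place K F} {A B : Divisor K F} (hA : 0 ≤ A) (hB : 0 ≤ B)
    (hBr : rrDim B = 1) (hdeg : Divisor.degree A = Divisor.degree B)
    (h : redClass O A = redClass O B) : A = B := by
  refine eq_of_isPrincipal_sub hA hB hBr ?_
  have h1 := QuotientAddGroup.eq.1 h.symm
  rw [AddSubgroup.mem_addSubgroupOf] at h1
  show A - B ∈ Divisor.principal (K := K) (F := F)
  convert h1 using 1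
  simp only [AddSubgroup.coe_add, AddSubgroup.coe_neg, hdeg]
  abel

/-- Every torsion class is the class of a reduced divisor. -/
theorem exists_isRed {n : ℕ} {c : Pic0 K F} (hc : c ∈ Pic0.torsion K F n) (O : Place K F) :
    ∃ A, IsRed n O A ∧ redClass O A = c := by
  classical
  obtain ⟨⟨D, hD⟩, rfl⟩ := Pic0.mk_surjective c
  rw [Divisor.mem_degZero] at hD
  have hex : ∃ m : ℕ, 0 < rrDim (D + Finsupp.single O (m : ℤ)) := by
    obtain ⟨b, hb⟩ := exists_rrDim_eq (K := K) (F := F)
    refine ⟨(max b (rGenus K F)).toNat, ?_⟩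
    have h := hb (D + Finsupp.single O (((max b (rGenus K F)).toNat : ℕ) : ℤ))
      (by rw [map_add, hD, degree_single_eq]; omega)
    rw [map_add, hD, degree_single_eq] at h
    omega
  obtain ⟨m, hpos, hmin⟩ : ∃ m : ℕ, 0 < rrDim (D + Finsupp.single O (m : ℤ)) ∧
      ∀ k < m, ¬0 < rrDim (D + Finsupp.single O (k : ℤ)) :=
    ⟨_, Nat.find_spec hex, fun k hk => Nat.find_min hex hk⟩
  have hzero : rrDim (D + Finsupp.single O ((m : ℤ) - 1)) = 0 := by
    rcases Nat.eq_zero_or_pos m with h0 | h0
    · rw [rrDim, riemannRochSpace_eq_bot_of_degree_neg, finrank_bot]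
      rw [map_add, hD, degree_single_eq]; omega
    · have h1 := hmin (m - 1) (by omega)
      rw [show ((m : ℤ) - 1) = ((m - 1 : ℕ) : ℤ) by omega]
      omega
  have hle := rrDim_le_add (D := D + Finsupp.single O ((m : ℤ) - 1))
    (E := D + Finsupp.single O (m : ℤ)) (by
      intro v
      simp only [Finsupp.add_apply, Finsupp.single_apply]
      split_ifs <;> omega)
  have hone : rrDim (D + Finsupp.single O (m : ℤ)) = 1 := by
    rw [hzero, map_sub, map_add, map_add, degree_single_eq, degree_single_eq] at hle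
    omega
  obtain ⟨f, hf⟩ := Module.finrank_pos_iff_exists_ne_zero.1 (hpos : 0 < finrank K _)
  have hf0 : (f : F) ≠ 0 := fun h0 => hf (Subtype.ext h0)
  set A := D + Finsupp.single O (m : ℤ) + divisorOf (f : F) with hAdef
  have hA0 : 0 ≤ A := fun v => by
    have := (mem_riemannRochSpace_iff_ne_zero hf0).1 f.2 v
    simp only [hAdef, Finsupp.add_apply, divisorOf_apply, Finsupp.zero_apply] at this ⊢
    omega
  have hdegA : Divisor.degree A = (m : ℤ) := by
    rw [hAdef, map_add, map_add, hD, degree_single_eq, degree_divisorOf]; simp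
  have hAr : rrDim A = 1 := by
    rw [← hone, ← rrDim_sub_divisorOf A hf0, hAdef, add_sub_cancel_right]
  have hcl : redClass O A = Pic0.mk ⟨D, Divisor.mem_degZero.2 hD⟩ := by
    refine QuotientAddGroup.eq.2 ?_
    rw [AddSubgroup.mem_addSubgroupOf]
    convert (Divisor.principal (K := K) (F := F)).neg_mem (isPrincipal_iff.2 ⟨f, hf0, rfl⟩) using 1
    simp only [AddSubgroup.coe_add, AddSubgroup.coe_neg]
    rw [hdegA, hAdef]
    abel
  have hAO : rrDim (A - Finsupp.single O 1) = 0 := by
    rw [← hzero, ← rrDim_sub_divisorOf (A - Finsupp.single O 1) hf0, hAdef, Finsupp.single_sub]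
    congr 1
    abel
  refine ⟨A, ⟨hA0, hAr, ?_, hAO⟩, hcl⟩
  have h1 := (Pic0.mem_torsion.1 hc)
  rw [← hcl] at h1
  have h2 := (QuotientAddGroup.eq_zero_iff _).1 h1
  rwa [AddSubgroup.mem_addSubgroupOf] at h2

/-- Reduced divisors of the same class have the same degree. -/
theorem IsRed.degree_eq {n : ℕ} {O : Place K F} {A B : Divisor K F} (hA : IsRed n O A)
    (hB : IsRed n O B) (h : redClass O A = redClass O B) :
    Divisor.degree A = Divisor.degree B := by
  suffices key : ∀ A B : Divisor K F, 0 ≤ A → rrDim (B - Finsupp.single O 1) = 0 →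
      redClass O A = redClass O B → ¬Divisor.degree A < Divisor.degree B from
    le_antisymm (not_lt.1 (key B A hB.1 hA.2.2.2 h.symm)) (not_lt.1 (key A B hA.1 hB.2.2.2 h))
  intro A B hA hB h hlt
  have h1 := QuotientAddGroup.eq.1 h
  rw [AddSubgroup.mem_addSubgroupOf] at h1
  obtain ⟨f, hf, hf'⟩ := isPrincipal_iff.1 h1
  simp only [AddSubgroup.coe_add, AddSubgroup.coe_neg] at hf'
  set d := Divisor.degree B - Divisor.degree A
  set E := A + Finsupp.single O (d - 1) with hE
  have hE0 : 0 ≤ E := fun v => by
    have h0 := hA v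
    simp only [Finsupp.zero_apply] at h0
    simp only [hE, Finsupp.add_apply, Finsupp.zero_apply]
    rcases eq_or_ne v O with rfl | hv
    · rw [Finsupp.single_eq_same]; omega
    · rw [Finsupp.single_eq_of_ne hv]; omega
  have hEB : (B - Finsupp.single O 1) - divisorOf f = E := by
    rw [← hf', hE, Finsupp.single_sub, Finsupp.single_sub]
    abel
  have h1m : (1 : F) ∈ riemannRochSpace E := by
    rw [mem_riemannRochSpace]
    exact fun v => Or.inr (by simpa using hE0 v)
  have hpos : 0 < rrDim E :=
    Module.finrank_pos_iff_exists_ne_zero.2 ⟨⟨1, h1m⟩, fun h =>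
      one_ne_zero (congrArg Subtype.val h)⟩
  rw [← hEB, rrDim_sub_divisorOf _ hf, hB] at hpos
  omega

end Basic

namespace Setup

variable {K L F E : Type*} [Field K] [Field L] [Field F] [Field E] [Algebra K F] [Algebra L E]
  [Algebra K L] [Algebra K E] [IsScalarTower K L E]
variable (S : Setup K L F E) [IsAlgClosed K] [IsAlgClosed L] [IsFF K F] [IsFF L E]

theorem extDiv_nonneg {A : Divisor K F} (h : 0 ≤ A) : 0 ≤ S.extDiv A := fun w => by
  rcases S.exists_ext_or_isNew w with ⟨v, rfl⟩ | hw
  · simpa using h v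
  · simp [S.extDiv_apply_of_isNew A hw]

omit [IsAlgClosed L] in
theorem extDiv_mem_principal {D : Divisor K F} (h : D ∈ Divisor.principal (K := K) (F := F)) :
    S.extDiv D ∈ Divisor.principal (K := L) (F := E) := by
  obtain ⟨f, hf, rfl⟩ := isPrincipal_iff.1 h
  rw [S.extDiv_divisorOf hf]
  exact isPrincipal_iff.2 ⟨_, (_root_.map_ne_zero _).2 hf, rfl⟩

theorem mem_principal_of_extDiv [CharZero K] {D : Divisor K F} (hdeg : Divisor.degree D = 0)
    (h : S.extDiv D ∈ Divisor.principal (K := L) (F := E)) :
    D ∈ Divisor.principal (K := K) (F := F) := by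
  refine isPrincipal_of_rrDim_pos hdeg ?_
  rw [← S.rrDim_extDiv, map_neg]
  exact rrDim_pos_of_isPrincipal h

/-- Extension of constants on degree zero classes. -/
def pic0Ext : Pic0 K F →+ Pic0 L E :=
  QuotientAddGroup.map _ _
    ((S.extDiv.domRestrict (Divisor.degZero (K := K) (F := F))).codRestrict
      (Divisor.degZero (K := L) (F := E)) fun D => Divisor.mem_degZero.2
        ((S.degree_extDiv D).trans (Divisor.mem_degZero.1 D.2)))
    (by
      rintro ⟨D, hD⟩ h
      rw [AddSubgroup.mem_addSubgroupOf] at h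
      rw [AddSubgroup.mem_comap, AddSubgroup.mem_addSubgroupOf]
      exact S.extDiv_mem_principal h)

/-- Extension of constants is injective on degree zero classes. -/
theorem pic0Ext_injective [CharZero K] : Function.Injective S.pic0Ext := by
  rw [injective_iff_map_eq_zero]
  intro c hc
  obtain ⟨⟨D, hD⟩, rfl⟩ := Pic0.mk_surjective c
  refine (QuotientAddGroup.eq_zero_iff _).2 ?_
  rw [AddSubgroup.mem_addSubgroupOf]
  have h := (QuotientAddGroup.eq_zero_iff _).1 hc
  rw [AddSubgroup.mem_addSubgroupOf] at h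
  exact S.mem_principal_of_extDiv (Divisor.mem_degZero.1 hD) h

omit [IsAlgClosed L] in
/-- Extension of constants keeps torsion. -/
theorem pic0Ext_mem_torsion {n : ℕ} {c : Pic0 K F} (h : c ∈ Pic0.torsion K F n) :
    S.pic0Ext c ∈ Pic0.torsion L E n := by
  rw [Pic0.mem_torsion] at h ⊢
  rw [← map_zsmul, h, map_zero]

/-- A divisor avoiding the new places is extended from `F`. -/
theorem exists_extDiv_eq {A : Divisor L E} (h : ∀ w ∈ A.support, ¬S.IsNew w) :
    ∃ A₀ : Divisor K F, S.extDiv A₀ = A := by
  refine ⟨Finsupp.comapDomain S.ext A S.ext_injective.injOn, ?_⟩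
  refine Finsupp.mapDomain_comapDomain S.ext S.ext_injective A fun w hw => ?_
  exact (S.exists_ext_or_isNew w).resolve_right (h w hw)

omit [IsAlgClosed L] in
/-- Poles of `x` extend to poles of `x`. -/
theorem ext_pole {O : Place K F} (hO : O.ord S.P.x < 0) : (S.ext O).ord S.Q.x < 0 := by
  rwa [← S.φ_x, S.ord_ext]

/-- Extension of constants on the class of `A - m O`. -/
theorem pic0Ext_redClass (O : Place K F) (A : Divisor K F) :
    S.pic0Ext (redClass O A) = redClass (S.ext O) (S.extDiv A) := by
  refine congrArg Pic0.mk (Subtype.ext ?_)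
  show S.extDiv (A - Finsupp.single O (Divisor.degree A)) =
    S.extDiv A - Finsupp.single (S.ext O) (Divisor.degree (S.extDiv A))
  rw [map_sub, S.degree_extDiv]
  congr 1
  exact Finsupp.mapDomain_single

/-- Reduced torsion divisors extend to reduced torsion divisors. -/
theorem isRed_extDiv [CharZero K] {n : ℕ} {O : Place K F} {A : Divisor K F} (h : IsRed n O A) :
    IsRed n (S.ext O) (S.extDiv A) := by
  obtain ⟨h1, h2, h3, h4⟩ := h
  refine ⟨S.extDiv_nonneg h1, (S.rrDim_extDiv A).trans h2, ?_, ?_⟩
  swap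
  · rw [show S.extDiv A - Finsupp.single (S.ext O) 1 = S.extDiv (A - Finsupp.single O 1) by
      rw [map_sub]; congr 1; exact Finsupp.mapDomain_single.symm, S.rrDim_extDiv, h4]
  have e : S.extDiv (A - Finsupp.single O (Divisor.degree A)) =
      S.extDiv A - Finsupp.single (S.ext O) (Divisor.degree (S.extDiv A)) := by
    rw [map_sub, S.degree_extDiv]
    congr 1
    exact Finsupp.mapDomain_single
  rw [← e, ← map_zsmul]
  exact S.extDiv_mem_principal h3

omit [IsAlgClosed L] in
/-- The value of `x` at an extended place is the extended value. -/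
theorem ext_value {v : Place K F} {c : K}
    (h : OrdGE v 1 (S.P.x - algebraMap K F c)) :
    OrdGE (S.ext v) 1 (S.Q.x - algebraMap L E (algebraMap K L c)) := by
  rw [← IsScalarTower.algebraMap_apply, ← S.φ.commutes, ← S.φ_x, ← map_sub, S.ordGE_ext]
  exact h

include S in
/-- The genus of the extension is that of `F`. -/
theorem genusFF_eq [CharZero K] : genusFF L E = genusFF K F := by
  have h1 := FermatAgent.Curve.Jac.genusFF_eq (K := K) (F := F)
  have h2 := FermatAgent.Curve.Jac.genusFF_eq (K := L) (F := E)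
  have h3 := S.rGenus_eq
  omega

end Setup

end FermatAgent.Curve.Jac.Descent
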