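import Fermat.Agent.Curve.Jac.Descent.Fields
import Fermat.Agent.Curve.Jac.Descent.Torsion

/-!
# From the complex count to all algebraically closed fields of characteristic zero

If `#Pic⁰(E)[n] = n ^ (2g)` for every function field over `ℂ`, the same holds over every
algebraically closed `K` of characteristic zero. A countable `K` embeds into `ℂ`, and every torsion
class of the extension is defined over `K`, since the finitely many values of `x` at reduced
torsion divisors cannot be transcendental over `K`. In general finitely many classes are defined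
over a countable algebraically closed subfield.
-/

set_option autoImplicit false

noncomputable section

open AlgebraicCurve Polynomial Module

universe u v

namespace FermatAgent.Curve.Jac.Descent

/-- The finite values of `x` at the places of the reduced torsion divisors. -/
def RedVal {K F : Type*} [Field K] [Field F] [Algebra K F] [IsFF K F] [IsAlgClosed K]
    (x : F) (n : ℕ) (c : K) : Prop :=
  ∃ O A w, O.ord x < 0 ∧ IsRed n O A ∧ A w ≠ 0 ∧ OrdGE (w : Place K F) 1 (x - algebraMap K F c)

theorem finite_redVal {K F : Type*} [Field K] [Field F] [Algebra K F] [IsFF K F] [IsAlgClosed K]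
    (x : F) (n : ℕ) (hfin : (Pic0.torsion K F n : Set (Pic0 K F)).Finite) :
    {c : K | RedVal x n c}.Finite := by
  have hpoles : {O : Place K F | O.ord x < 0}.Finite :=
    (finite_ord_pos (K := K) x⁻¹).subset fun O (hO : O.ord x < 0) => by
      show 0 < O.ord x⁻¹
      rw [Place.ord_inv]; omega
  have hA : ∀ O : Place K F, {A : Divisor K F | IsRed n O A}.Finite := fun O =>
    Set.Finite.of_finite_image (f := redClass O)
      (hfin.subset (by rintro _ ⟨A, hA, rfl⟩; exact IsRed.mem_torsion hA))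
      (fun A (hA : IsRed n O A) B (hB : IsRed n O B) h =>
        eq_of_redClass_eq hA.1 hB.1 hB.2.1 (hA.degree_eq hB h) h)
  refine ((hpoles.biUnion fun O _ => (hA O).biUnion fun A _ => A.support.finite_toSet.biUnion
    fun w _ => Set.Subsingleton.finite
      (s := {c : K | OrdGE w 1 (x - algebraMap K F c)}) fun a ha b hb => ?_)).subset ?_
  · have h := OrdGE.sub hb ha
    rwa [sub_sub_sub_cancel_left, ← map_sub, ordGE_algebraMap_one_iff, sub_eq_zero] at h
  · rintro c ⟨O, A, w, hO, hA, hw, hc⟩
    exact Set.mem_biUnion hO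
      (Set.mem_biUnion hA (Set.mem_biUnion (Finsupp.mem_support_iff.2 hw) hc))

/-- Base change moves the values along the homomorphism. -/
theorem redVal_transport {K L F E : Type*} [Field K] [Field L] [Field F] [Field E] [Algebra K F]
    [Algebra L E] [IsAlgClosed K] [IsAlgClosed L] [CharZero K] [IsFF K F] [IsFF L E]
    (σ : K →+* L) {Φ : K[X][X]} (hm : Φ.Monic) (hi : Irreducible Φ) (P : Gen Φ F) {Φ' : L[X][X]}
    (hΦ : Φ.map (mapRingHom σ) = Φ') (Q : Gen Φ' E) {n : ℕ} {c : K} (h : RedVal P.x n c) :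
    RedVal Q.x n (σ c) := by
  subst hΦ
  let : Algebra K L := σ.toAlgebra
  let : Algebra K E :=
    RingHom.toAlgebra (R := K) (S := E) ((algebraMap L E).comp (algebraMap K L))
  have : IsScalarTower K L E := IsScalarTower.of_algebraMap_eq fun _ => rfl
  let S : Setup K L F E := Setup.ofGen hm hi P Q
  obtain ⟨O, A, w, hO, hA, hw, hc⟩ := h
  refine ⟨S.ext O, S.extDiv A, S.ext w, S.ext_pole hO, S.isRed_extDiv hA, ?_, S.ext_value hc⟩
  rwa [S.extDiv_apply_ext]

/-- The values at reduced torsion divisors lie in the field of definition: a transcendental value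
would have infinitely many translates among them. -/
theorem mem_range_of_redVal {K : Type*} [Field K] [IsAlgClosed K] [Algebra K ℂ]
    {E : Type} [Field E] [Algebra ℂ E] [IsFF ℂ E] {Φ : K[X][X]} (hm : Φ.Monic)
    (hi : Irreducible Φ) (Q : Gen (Φ.map (mapRingHom (algebraMap K ℂ))) E) {n : ℕ}
    (hfin : (Pic0.torsion ℂ E n : Set (Pic0 ℂ E)).Finite) {z : ℂ} (hz : RedVal Q.x n z) :
    z ∈ Set.range (algebraMap K ℂ) := by
  by_contra hzK
  have hzt : Transcendental K z := fun halg => hzK (by
    have := IntermediateField.isAlgebraic_adjoin_simple halg.isIntegral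
    exact IntermediateField.mem_bot.1
      ((IntermediateField.eq_bot_of_isAlgClosed_of_isAlgebraic (IntermediateField.adjoin K {z})) ▸
        IntermediateField.mem_adjoin_simple_self K z))
  have hsub : Set.range (fun k : ℕ => z + (k : ℂ)) ⊆ {z | RedVal Q.x n z} := by
    rintro _ ⟨k, rfl⟩
    obtain ⟨σ, hσ⟩ := exists_translate hzt k
    have hfix : ((Φ.map (mapRingHom (algebraMap K ℂ))).map (mapRingHom (σ : ℂ →+* ℂ))) =
        Φ.map (mapRingHom (algebraMap K ℂ)) := by
      rw [Polynomial.map_map, mapRingHom_comp]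
      congr 2
      exact σ.comp_algebraMap
    have := redVal_transport (σ : ℂ →+* ℂ) (hm.map _) (irreducible_map (L := ℂ) hm hi) Q hfix Q hz
    rwa [RingHom.coe_coe, hσ] at this
  exact Set.infinite_range_of_injective
    (fun a b hab => Nat.cast_injective (R := ℂ) (add_left_cancel hab))
    ((finite_redVal Q.x n hfin).subset hsub)

/-- Torsion counting over a countable algebraically closed field. -/
theorem natCard_torsion_countable
    (h : ∀ (E : Type) [Field E] [Algebra ℂ E] [IsFF ℂ E] (n : ℕ), 0 < n →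
      Nat.card (Pic0.torsion ℂ E n) = n ^ (2 * genusFF ℂ E))
    {K : Type u} [Field K] [CharZero K] [IsAlgClosed K] [Countable K] {F : Type v} [Field F]
    [Algebra K F] [IsFF K F] {Φ : K[X][X]} (hm : Φ.Monic) (hi : Irreducible Φ) (P : Gen Φ F)
    {n : ℕ} (hn : 0 < n) :
    Nat.card (Pic0.torsion K F n) = n ^ (2 * genusFF K F) := by
  classical
  obtain ⟨i⟩ := exists_complex_embedding K
  let : Algebra K ℂ := i.toAlgebra
  have hΦc := hm.map (mapRingHom (algebraMap K ℂ))
  have hic := irreducible_map (L := ℂ) hm hi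
  obtain ⟨E, hE, hEalg, ⟨Q⟩⟩ := exists_gen_model hΦc hic
  let : Algebra K E :=
    RingHom.toAlgebra (R := K) (S := E) ((algebraMap ℂ E).comp (algebraMap K ℂ))
  have : IsScalarTower K ℂ E := IsScalarTower.of_algebraMap_eq fun _ => rfl
  have : IsFF ℂ E := Q.isFF hΦc
  let S : Setup K ℂ F E := Setup.ofGen hm hi P Q
  have hcard := h E n hn
  have : Finite (Pic0.torsion ℂ E n) :=
    Nat.finite_of_card_ne_zero (by rw [hcard]; exact pow_ne_zero _ hn.ne')
  have hfin : (Pic0.torsion ℂ E n : Set (Pic0 ℂ E)).Finite := Set.toFinite _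
  rw [← S.genusFF_eq, ← hcard]
  refine Nat.card_eq_of_bijective
    (fun c => (⟨S.pic0Ext c.1, S.pic0Ext_mem_torsion c.2⟩ : Pic0.torsion ℂ E n))
    ⟨fun a b hab => Subtype.ext (S.pic0Ext_injective (congrArg Subtype.val hab)), ?_⟩
  rintro ⟨c, hc⟩
  obtain ⟨O₀, hO₀⟩ := exists_place_ord_pos (K := K) (F := F) (x := S.P.x⁻¹)
    fun h => S.P.tr (inv_inv S.P.x ▸ h.inv)
  rw [Place.ord_inv] at hO₀
  have hO : (S.ext O₀).ord S.Q.x < 0 := S.ext_pole (by omega)
  obtain ⟨A, hA, rfl⟩ := exists_isRed hc (S.ext O₀)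
  obtain ⟨A₀, hA₀⟩ := S.exists_extDiv_eq (A := A) fun w hw ⟨z, hz, hzw⟩ =>
    hz (mem_range_of_redVal hm hi Q hfin
      ⟨S.ext O₀, A, w, hO, hA, Finsupp.mem_support_iff.1 hw, hzw⟩)
  refine ⟨⟨redClass O₀ A₀, ?_⟩, Subtype.ext ?_⟩
  · rw [Pic0.mem_torsion]
    apply S.pic0Ext_injective
    rw [map_zsmul, map_zero, S.pic0Ext_redClass, hA₀]
    exact Pic0.mem_torsion.1 hc
  · show S.pic0Ext (redClass O₀ A₀) = _
    rw [S.pic0Ext_redClass, hA₀]

/-- Every finite family of `n`-torsion classes is defined over a countable algebraically closed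
field, hence contained in a set of `n ^ (2g)` classes. -/
theorem exists_superset_card
    (h : ∀ (E : Type) [Field E] [Algebra ℂ E] [IsFF ℂ E] (n : ℕ), 0 < n →
      Nat.card (Pic0.torsion ℂ E n) = n ^ (2 * genusFF ℂ E))
    {K : Type u} [Field K] [CharZero K] [IsAlgClosed K] {F : Type v} [Field F] [Algebra K F]
    [IsFF K F] {n : ℕ} (hn : 0 < n) (C : Finset (Pic0.torsion K F n)) :
    ∃ T : Finset (Pic0.torsion K F n), C ⊆ T ∧ T.card = n ^ (2 * genusFF K F) := by
  classical
  obtain ⟨Φ, hm, hi, ⟨P⟩⟩ := exists_gen (K := K) (F := F)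
  obtain ⟨O, -⟩ := exists_place_ord_pos (K := K) (F := F) (x := P.x⁻¹)
    fun h => P.tr (inv_inv P.x ▸ h.inv)
  choose A hA hAc using fun c : Pic0.torsion K F n => exists_isRed c.2 O
  -- the equation and the values of `x` at the places involved are defined over `K₁`
  let W : Finset (Place K F) := insert O (C.biUnion fun c => (A c).support)
  let val : Place K F → K := fun w =>
    if hw : OrdGE w 0 P.x then (exists_sub_algebraMap w hw).choose else 0
  obtain ⟨K₁, Φ₁, hc₁, ha₁, hval, hm₁, hi₁, rfl⟩ := exists_countable_model hm hi (W.image val)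
  obtain ⟨F₁, hF₁, hFalg, ⟨P₁⟩⟩ := exists_gen_model hm₁ hi₁
  have : IsFF K₁ F₁ := P₁.isFF hm₁
  let S : Setup K₁ K F₁ F := Setup.ofGen hm₁ hi₁ P₁ P
  have hcard := natCard_torsion_countable h hm₁ hi₁ P₁ hn
  rw [← S.genusFF_eq] at hcard
  have : Finite (Pic0.torsion K₁ F₁ n) :=
    Nat.finite_of_card_ne_zero (by rw [hcard]; exact pow_ne_zero _ hn.ne')
  let e : Pic0.torsion K₁ F₁ n → Pic0.torsion K F n :=
    fun c => ⟨S.pic0Ext c.1, S.pic0Ext_mem_torsion c.2⟩
  have he : Function.Injective e := fun a b hab =>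
    Subtype.ext (S.pic0Ext_injective (congrArg Subtype.val hab))
  have := Fintype.ofFinite (Pic0.torsion K₁ F₁ n)
  refine ⟨Finset.univ.image e, fun c hc => Finset.mem_image.2 ?_, by
    rw [Finset.card_image_of_injective _ he, Finset.card_univ, ← Nat.card_eq_fintype_card, hcard]⟩
  have hnew : ∀ w ∈ W, ¬S.IsNew w := by
    rintro w hw ⟨z, hz, hzw : OrdGE w 1 (P.x - algebraMap K F z)⟩
    refine hz ⟨⟨z, hval z (Finset.mem_image.2 ⟨w, hw, ?_⟩)⟩, rfl⟩
    have hx0 : OrdGE w 0 P.x := by
      simpa using (hzw.mono (m := 0) (by omega)).add (ordGE_algebraMap z)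
    simp only [val, dif_pos hx0]
    have := hzw.sub (exists_sub_algebraMap w hx0).choose_spec
    rwa [sub_sub_sub_cancel_left, ← map_sub, ordGE_algebraMap_one_iff, sub_eq_zero] at this
  obtain ⟨O₁, hO₁⟩ :=
    (S.exists_ext_or_isNew O).resolve_right (hnew O (Finset.mem_insert_self _ _))
  obtain ⟨A₁, hA₁⟩ := S.exists_extDiv_eq (A := A c) fun w hw =>
    hnew w (Finset.mem_insert_of_mem (Finset.mem_biUnion.2 ⟨c, hc, hw⟩))
  have hmap : S.pic0Ext (redClass O₁ A₁) = (c : Pic0 K F) := by
    rw [S.pic0Ext_redClass, hA₁, hO₁, hAc c]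
  refine ⟨⟨redClass O₁ A₁, ?_⟩, Finset.mem_univ _, Subtype.ext hmap⟩
  rw [Pic0.mem_torsion]
  apply S.pic0Ext_injective
  rw [map_zsmul, map_zero, hmap]
  exact Pic0.mem_torsion.1 c.2

/-- **Descent.** The complex count gives the count over every algebraically closed field of
characteristic zero. -/
theorem natCard_torsion_of_complex
    (h : ∀ (E : Type) [Field E] [Algebra ℂ E] [IsFF ℂ E] (n : ℕ), 0 < n →
      Nat.card (Pic0.torsion ℂ E n) = n ^ (2 * genusFF ℂ E))
    {K : Type u} [Field K] [CharZero K] [IsAlgClosed K] {F : Type v} [Field F] [Algebra K F]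
    [IsFF K F] {n : ℕ} (hn : 0 < n) :
    Nat.card (Pic0.torsion K F n) = n ^ (2 * genusFF K F) := by
  classical
  obtain ⟨T, -, hT⟩ := exists_superset_card h hn (∅ : Finset (Pic0.torsion K F n))
  have hall : ∀ c, c ∈ T := fun c => by
    obtain ⟨T', hsub, hT'⟩ := exists_superset_card h hn (insert c T)
    rw [Finset.eq_of_subset_of_card_le ((Finset.subset_insert c T).trans hsub)
      (hT'.trans hT.symm).le]
    exact hsub (Finset.mem_insert_self c T)
  have : Fintype (Pic0.torsion K F n) := ⟨T, hall⟩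
  rw [Nat.card_eq_fintype_card, ← hT]
  exact (Finset.card_eq_iff_eq_univ T).2 (Finset.eq_univ_of_forall hall) |>.symm

end FermatAgent.Curve.Jac.Descent
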