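import Mathlib.RingTheory.Polynomial.IsIntegral
import Mathlib.FieldTheory.Minpoly.IsIntegrallyClosed
import Mathlib.RingTheory.Polynomial.UniqueFactorization
import Mathlib.RingTheory.Polynomial.GaussLemma
import Mathlib.RingTheory.Localization.Integral
import Mathlib.FieldTheory.IsAlgClosed.Basic
import Mathlib.FieldTheory.Perfect

/-!
# Presentations of function fields by a monic irreducible polynomial
-/

set_option autoImplicit false

noncomputable section

open Polynomial

namespace FermatAgent.Curve.Jac.Descent

variable {K : Type*} [Field K] {F : Type*} [Field F] [Algebra K F]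

/-- Evaluation of a polynomial in two variables. -/
def pev (x y : F) : K[X][X] →+* F := eval₂RingHom (aeval x : K[X] →ₐ[K] F).toRingHom y

/-- Evaluation on a coefficient. -/
@[simp] theorem pev_C (x y : F) (p : K[X]) : pev x y (C p) = aeval x p := by simp [pev]

/-- Evaluation on the outer variable. -/
@[simp] theorem pev_X (x y : F) : pev x y (X : K[X][X]) = y := by simp [pev]

/-- Evaluation on a constant. -/
theorem pev_CC (x y : F) (a : K) : pev x y (C (C a)) = algebraMap K F a := by simp

/-- Evaluation commutes with extension of constants. -/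
theorem pev_map {L : Type*} [Field L] [Algebra K L] [Algebra L F] [IsScalarTower K L F] (x y : F)
    (r : K[X][X]) :
    pev x y (r.map (mapRingHom (algebraMap K L))) = pev x y r := by
  simp only [pev, coe_eval₂RingHom, eval₂_map]
  congr 1
  ext p <;> simp [IsScalarTower.algebraMap_apply K L F]

/-- Homomorphisms commute with evaluation. -/
theorem map_pev {E : Type*} [Field E] [Algebra K E] (φ : F →+* E)
    (hφ : ∀ a, φ (algebraMap K F a) = algebraMap K E a) (x y : F) (r : K[X][X]) :
    φ (pev x y r) = pev (φ x) (φ y) r := by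
  have : φ.comp (pev (K := K) x y) = pev (φ x) (φ y) := by
    ext a <;> simp [hφ]
  exact DFunLike.congr_fun this r

/-- A root of a monic irreducible polynomial satisfies only its multiples. -/
theorem pev_eq_zero_iff {Φ : K[X][X]} (hm : Φ.Monic) (hi : Irreducible Φ) {x y : F}
    (hx : Transcendental K x) (hroot : pev x y Φ = 0) (r : K[X][X]) :
    pev x y r = 0 ↔ Φ ∣ r := by
  let : Algebra K[X] F :=
    RingHom.toAlgebra (R := K[X]) (S := F) (aeval x : K[X] →ₐ[K] F).toRingHom
  have halg : algebraMap K[X] F = (aeval x : K[X] →ₐ[K] F).toRingHom :=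
    RingHom.algebraMap_toAlgebra _
  have hinj : Function.Injective (algebraMap K[X] F) := by
    rw [halg]; exact transcendental_iff_injective.1 hx
  have : Module.IsTorsionFree K[X] F := Module.isTorsionFree_iff_algebraMap_injective.mpr hinj
  have hev : ∀ p : K[X][X], aeval y p = pev x y p := fun p => by
    rw [aeval_def, halg]; rfl
  have hroot' : aeval y Φ = 0 := (hev Φ).trans hroot
  have hint : IsIntegral K[X] y := ⟨Φ, hm, by rw [← aeval_def]; exact hroot'⟩
  refine ⟨fun h => ?_, fun ⟨c, hc⟩ => by rw [hc, map_mul, hroot, zero_mul]⟩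
  have h1 := minpoly.isIntegrallyClosed_dvd hint (p := Φ) hroot'
  have h2 := minpoly.isIntegrallyClosed_dvd hint (p := r) ((hev r).trans h)
  have h3 : minpoly K[X] y = Φ := eq_of_monic_of_associated (minpoly.monic hint) hm
    ((hi.dvd_iff.1 h1).resolve_left (minpoly.not_isUnit K[X] y)).symm
  rwa [h3] at h2

/-- A presentation of `F` by a plane equation. -/
structure Gen (Φ : K[X][X]) (F : Type*) [Field F] [Algebra K F] where
  /-- the transcendental generator -/
  x : F
  /-- the generator algebraic over `K (x)` -/
  y : F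
  tr : Transcendental K x
  root : pev x y Φ = 0
  gen : ∀ z : F, ∃ a b : K[X][X], pev x y b ≠ 0 ∧ z = pev x y a / pev x y b

namespace Gen

variable {Φ : K[X][X]} (P : Gen Φ F)

variable (hm : Φ.Monic) (hi : Irreducible Φ)
include hm hi

/-- A root of the equation in another field defines a homomorphism from `F`. -/
theorem exists_lift {E : Type*} [Field E] [Algebra K E] {x' y' : E} (hx : Transcendental K x')
    (hroot : pev x' y' Φ = 0) :
    ∃ φ : F →ₐ[K] E, φ P.x = x' ∧ φ P.y = y' := by
  have key : ∀ r : K[X][X], pev P.x P.y r = 0 ↔ pev x' y' r = 0 := fun r => by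
    rw [pev_eq_zero_iff hm hi P.tr P.root, pev_eq_zero_iff hm hi hx hroot]
  choose a b hb hz using P.gen
  let φ : F → E := fun z => pev x' y' (a z) / pev x' y' (b z)
  have hspec : ∀ (z : F) (p q : K[X][X]), pev P.x P.y q ≠ 0 → z = pev P.x P.y p / pev P.x P.y q →
      φ z = pev x' y' p / pev x' y' q := by
    intro z p q hq e
    have h1 : pev P.x P.y (a z * q - p * b z) = 0 := by
      rw [map_sub, map_mul, map_mul, sub_eq_zero, ← div_eq_div_iff (hb z) hq, ← hz z, ← e]
    have h2 := (key _).1 h1
    rw [map_sub, map_mul, map_mul, sub_eq_zero] at h2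
    exact (div_eq_div_iff (fun h => hb z ((key _).2 h)) (fun h => hq ((key _).2 h))).2 h2
  have hd : ∀ p : K[X][X], φ (pev P.x P.y p) = pev x' y' p := fun p => by
    rw [hspec _ p 1 (by simp) (by simp), map_one, div_one]
  refine ⟨{ toFun := φ
            map_one' := by simpa using hd 1
            map_zero' := by simpa using hd 0
            map_mul' := fun z w => ?_
            map_add' := fun z w => ?_
            commutes' := fun c => by simpa using hd (C (C c)) }, ?_, ?_⟩
  · rw [hspec (z * w) (a z * a w) (b z * b w) (by rw [map_mul]; exact mul_ne_zero (hb z) (hb w))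
      (by rw [map_mul, map_mul, ← div_mul_div_comm, ← hz z, ← hz w])]
    simp only [φ, map_mul, div_mul_div_comm]
  · have hb' : ∀ u, pev x' y' (b u) ≠ 0 := fun u h => hb u ((key _).2 h)
    rw [hspec (z + w) (a z * b w + b z * a w) (b z * b w)
      (by rw [map_mul]; exact mul_ne_zero (hb z) (hb w))
      (by rw [map_add, map_mul, map_mul, map_mul, ← div_add_div _ _ (hb z) (hb w), ← hz z,
        ← hz w])]
    simp only [φ, map_add, map_mul, div_add_div _ _ (hb' z) (hb' w)]
  · simpa using hd (C X)
  · simpa using hd X

/-- A presenting polynomial has positive degree. -/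
theorem natDegree_pos : 0 < Φ.natDegree := by
  by_contra h
  exact hi.not_isUnit
    (by rw [Polynomial.eq_one_of_monic_natDegree_zero hm (by omega)]; exact isUnit_one)

/-- Bezout relation with values in the coefficient ring. -/
theorem exists_bezout {r : K[X][X]} (hr : ¬Φ ∣ r) :
    ∃ (u v : K[X][X]) (d : K[X]), d ≠ 0 ∧ u * Φ + v * r = C d := by
  classical
  let Q := FractionRing K[X]
  have hirr : Irreducible (Φ.map (algebraMap K[X] Q)) :=
    (hm.irreducible_iff_irreducible_map_fraction_map).1 hi
  have hnd : ¬Φ.map (algebraMap K[X] Q) ∣ r.map (algebraMap K[X] Q) := fun h =>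
    hr ((map_dvd_map (algebraMap K[X] Q) (IsFractionRing.injective K[X] Q) hm).1 h)
  obtain ⟨u, v, huv⟩ := hirr.coprime_iff_not_dvd.2 hnd
  obtain ⟨bu, hbu, hu⟩ := IsLocalization.integerNormalization_spec (nonZeroDivisors K[X]) u
  obtain ⟨bv, hbv, hv⟩ := IsLocalization.integerNormalization_spec (nonZeroDivisors K[X]) v
  refine ⟨C bv * IsLocalization.integerNormalization (nonZeroDivisors K[X]) u,
    C bu * IsLocalization.integerNormalization (nonZeroDivisors K[X]) v, bu * bv,
    mul_ne_zero (nonZeroDivisors.ne_zero hbu) (nonZeroDivisors.ne_zero hbv), ?_⟩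
  apply map_injective (algebraMap K[X] Q) (IsFractionRing.injective K[X] Q)
  simp only [Polynomial.map_add, Polynomial.map_mul, Polynomial.map_C, hu, hv, map_mul,
    Algebra.smul_def, IsScalarTower.algebraMap_apply K[X] Q (Q[X])]
  linear_combination (C (algebraMap K[X] Q bu) * C (algebraMap K[X] Q bv)) * huv

/-- Every element has a representation with denominator in the coefficient ring. -/
theorem exists_rep (z : F) :
    ∃ (a : K[X][X]) (d : K[X]), d ≠ 0 ∧ a.natDegree < Φ.natDegree ∧
      z * aeval P.x d = pev P.x P.y a := by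
  obtain ⟨a, b, hb, hz⟩ := P.gen z
  obtain ⟨u, v, d, hd, huv⟩ := exists_bezout hm hi
    fun h => hb ((pev_eq_zero_iff hm hi P.tr P.root b).2 h)
  refine ⟨(a * v) %ₘ Φ, d, hd, natDegree_modByMonic_lt _ hm fun h => ?_, ?_⟩
  · rw [h] at hi
    exact hi.not_isUnit isUnit_one
  have h1 : pev P.x P.y ((a * v) %ₘ Φ) = pev P.x P.y (a * v) := by
    conv_rhs => rw [← modByMonic_add_div (a * v) Φ, map_add, map_mul, P.root, zero_mul, add_zero]
  have h2 := congrArg (pev P.x P.y) huv
  rw [map_add, map_mul, map_mul, P.root, mul_zero, zero_add, pev_C] at h2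
  rw [h1, ← h2, hz, map_mul]
  field_simp

/-- The derivative is coprime to the polynomial (characteristic zero). -/
theorem exists_bezout_derivative [CharZero K] :
    ∃ (u v : K[X][X]) (d : K[X]), d ≠ 0 ∧ u * Φ + v * derivative Φ = C d := by
  have hp := natDegree_pos hm hi
  refine exists_bezout hm hi fun h => ?_
  have h0 : derivative Φ ≠ 0 := fun h0 => by
    have := derivative_eq_zero.1 h0
    omega
  exact absurd (natDegree_le_of_dvd h h0) (not_le.2 (natDegree_derivative_lt hp.ne'))

end Gen

variable {L : Type*} [Field L] [Algebra K L]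

/-- Extension of constants of an algebraically closed field keeps irreducibility. -/
theorem irreducible_map [IsAlgClosed K] {Φ : K[X][X]} (hm : Φ.Monic) (hi : Irreducible Φ) :
    Irreducible (Φ.map (mapRingHom (algebraMap K L))) := by
  set i := mapRingHom (algebraMap K L)
  have hinj : Function.Injective i := map_injective _ (algebraMap K L).injective
  let : Algebra K[X] L[X] := i.toAlgebra
  have hmap : (Φ.map i).Monic := hm.map i
  have hlift : ∀ q : L[X][X], q.Monic → q ∣ Φ.map i → ∃ q₀ : K[X][X], q₀.Monic ∧ q₀.map i = q := by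
    intro q hq hdvd
    have hcoeff : q ∈ lifts i := by
      rw [lifts_iff_coeff_lifts]
      intro n
      have h1 : IsIntegral K[X] (q.coeff n) := isIntegral_coeff_of_dvd Φ q hm hq hdvd n
      show q.coeff n ∈ Set.range (Polynomial.map (algebraMap K L))
      rw [← coe_mapRingHom, ← RingHom.coe_range, SetLike.mem_coe, mem_map_range]
      intro k
      have h2 : IsIntegral K ((q.coeff n).coeff k) := h1.coeff k
      have : Algebra.IsAlgebraic K (IntermediateField.adjoin K {(q.coeff n).coeff k}) :=
        IntermediateField.isAlgebraic_adjoin_simple h2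
      exact IntermediateField.mem_bot.1 ((IntermediateField.eq_bot_of_isAlgClosed_of_isAlgebraic
        (IntermediateField.adjoin K {(q.coeff n).coeff k})) ▸
          IntermediateField.mem_adjoin_simple_self K _)
    obtain ⟨q₀, h1, -, h3⟩ := lifts_and_degree_eq_and_monic hcoeff hq
    exact ⟨q₀, h3, h1⟩
  refine (hmap.irreducible_iff_natDegree).2 ⟨fun h => hi.not_isUnit ?_, fun f g hf hg hfg => ?_⟩
  · rw [map_injective i hinj (a₁ := Φ) (a₂ := 1) (by rw [h, Polynomial.map_one])]
    exact isUnit_one
  obtain ⟨f₀, hf₀, rfl⟩ := hlift f hf ⟨g, hfg.symm⟩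
  obtain ⟨g₀, hg₀, rfl⟩ := hlift g hg ⟨_, by rw [← hfg, mul_comm]⟩
  rw [← Polynomial.map_mul] at hfg
  have h := (hm.irreducible_iff_natDegree.1 hi).2 f₀ g₀ hf₀ hg₀ (map_injective i hinj hfg)
  rwa [hf₀.natDegree_map, hg₀.natDegree_map]

end FermatAgent.Curve.Jac.Descent
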