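import Fermat.Agent.Curve.Riemann
import Fermat.Agent.Curve.Embeddings
import Fermat.Agent.Curve.Jac.Descent.Pres

/-!
# Extension of constants

`Setup K L F E` says that `E` is presented over `L` by the plane equation presenting `F` over `K`.
-/

set_option autoImplicit false

noncomputable section

open AlgebraicCurve Polynomial IntermediateField Module

namespace FermatAgent.Curve.Jac.Descent

namespace Gen

variable {K F : Type*} [Field K] [Field F] [Algebra K F] {Φ : K[X][X]}

/-- The generators of a presentation generate the field. -/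
theorem adjoin_y_eq_top (P : Gen Φ F) : K⟮P.x⟯⟮P.y⟯ = ⊤ := by
  refine top_unique fun z _ => ?_
  have hmem : ∀ p : K[X][X], pev P.x P.y p ∈ K⟮P.x⟯⟮P.y⟯ := fun p => by
    induction p using Polynomial.induction_on' with
    | add p q hp hq => rw [map_add]; exact add_mem hp hq
    | monomial n c =>
      rw [← C_mul_X_pow_eq_monomial, map_mul, map_pow, pev_C, pev_X]
      refine mul_mem ?_ (pow_mem (mem_adjoin_simple_self _ _) _)
      have hc : aeval P.x c ∈ K⟮P.x⟯ :=
        algebra_adjoin_le_adjoin K _ (aeval_mem_adjoin_singleton K P.x)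
      exact IntermediateField.algebraMap_mem K⟮P.x⟯⟮P.y⟯ (⟨_, hc⟩ : K⟮P.x⟯)
  obtain ⟨a, b, -, rfl⟩ := P.gen z
  exact div_mem (hmem a) (hmem b)

/-- `y` is integral over `K (x)`. -/
theorem isIntegral_y (P : Gen Φ F) (hm : Φ.Monic) : IsIntegral K⟮P.x⟯ P.y := by
  let xg : K⟮P.x⟯ := AdjoinSimple.gen K P.x
  refine ⟨Φ.map (aeval xg : K[X] →ₐ[K] K⟮P.x⟯).toRingHom, hm.map _, ?_⟩
  rw [eval₂_map, ← P.root]
  simp only [pev, coe_eval₂RingHom]
  congr 1
  refine RingHom.ext fun p => ?_
  simp only [RingHom.comp_apply, AlgHom.toRingHom_eq_coe, RingHom.coe_coe]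
  rw [← aeval_algebraMap_apply]
  rfl

/-- A field with a presentation is a function field of one variable. -/
theorem isFF (P : Gen Φ F) (hm : Φ.Monic) : IsFF K F := by
  refine ⟨⟨P.x, P.tr, ?_⟩⟩
  have := adjoin.finiteDimensional (P.isIntegral_y hm)
  rw [P.adjoin_y_eq_top] at this
  exact IntermediateField.topEquiv.toLinearEquiv.finiteDimensional

end Gen

variable (K L F E : Type*) [Field K] [Field L] [Field F] [Field E] [Algebra K F] [Algebra L E]
  [Algebra K L] [Algebra K E] [IsScalarTower K L E]

/-- `E` is `F` with constants extended from `K` to `L`. -/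
structure Setup where
  /-- the plane equation over `K` -/
  Φ : K[X][X]
  monic : Φ.Monic
  irr : Irreducible Φ
  /-- the presentation of `F` -/
  P : Gen Φ F
  /-- the presentation of `E` by the same equation over `L` -/
  Q : Gen (Φ.map (mapRingHom (algebraMap K L))) E
  /-- the embedding of `F` into `E` respecting the two generators -/
  φ : F →ₐ[K] E
  φ_x : φ P.x = Q.x
  φ_y : φ P.y = Q.y

variable {K L F E}

/-- The extension of constants between two fields presented by the same equation. -/
def Setup.ofGen {Φ : K[X][X]} (hm : Φ.Monic) (hi : Irreducible Φ) (P : Gen Φ F)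
    (Q : Gen (Φ.map (mapRingHom (algebraMap K L))) E) : Setup K L F E :=
  have h := P.exists_lift hm hi (fun h => Q.tr (h.extendScalars (algebraMap K L).injective))
    (by rw [← pev_map (L := L)]; exact Q.root)
  ⟨Φ, hm, hi, P, Q, h.choose, h.choose_spec.1, h.choose_spec.2⟩

variable (L) in
/-- Coefficientwise extension of constants of Laurent series. -/
def mapSeries : LaurentSeries K →+* LaurentSeries L where
  toFun f := f.map (algebraMap K L)
  map_one' := by
    ext n
    simp only [HahnSeries.map_coeff, HahnSeries.coeff_one]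
    split_ifs <;> simp
  map_mul' f g := HahnSeries.map_mul (algebraMap K L).toNonUnitalRingHom
  map_zero' := by ext n; simp
  map_add' f g := by ext n; simp

/-- Coefficients are extended one by one. -/
@[simp] theorem coeff_mapSeries (f : LaurentSeries K) (n : ℤ) :
    (mapSeries L f).coeff n = algebraMap K L (f.coeff n) := rfl

/-- Extension of constants keeps orders. -/
theorem order_mapSeries (f : LaurentSeries K) : (mapSeries L f).order = f.order := by
  rcases eq_or_ne f 0 with rfl | hf
  · simp
  have hc : (mapSeries L f).coeff f.order ≠ 0 := by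
    rw [coeff_mapSeries, _root_.map_ne_zero]
    rwa [Ne, HahnSeries.coeff_order_eq_zero]
  refine le_antisymm (HahnSeries.order_le_of_coeff_ne_zero hc) ?_
  refine SGE.le_order (fun j hj => ?_) fun h => hc (by rw [h]; rfl)
  rw [coeff_mapSeries, sge_order f j hj, map_zero]

/-- Extension of constants on constant series. -/
theorem mapSeries_algebraMap (a : K) :
    mapSeries L (algebraMap K (LaurentSeries K) a) = algebraMap K (LaurentSeries L) a := by
  ext n
  rw [coeff_mapSeries, algebraMap_laurent, algebraMap_laurent]
  rcases eq_or_ne n 0 with rfl | hn <;> simp [*]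

end FermatAgent.Curve.Jac.Descent
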