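import Mathlib.Algebra.Polynomial.Eval.Irreducible
import Mathlib.Analysis.Complex.Polynomial.Basic
import Mathlib.Analysis.Real.Cardinality
import Mathlib.FieldTheory.Extension
import Mathlib.FieldTheory.AlgebraicClosure
import Mathlib.FieldTheory.IsAlgClosed.Classification
import Mathlib.RingTheory.AlgebraicIndependent.Adjoin
import Fermat.Agent.Curve.Jac.Descent.Ext

/-!
# Countable fields inside algebraically closed ones, and models over them
-/

set_option autoImplicit false

noncomputable section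

open Polynomial Cardinal IntermediateField

universe u

namespace FermatAgent.Curve.Jac.Descent

/-- An algebraically independent family extends to a homomorphism with prescribed images. -/
theorem exists_algHom_of_algebraicIndependent {R E M : Type*} [Field R] [Field E] [Algebra R E]
    [Field M] [Algebra R M] [IsAlgClosed M] {ι : Type*} {v : ι → E} (hv : IsTranscendenceBasis R v)
    {w : ι → M} (hw : AlgebraicIndependent R w) :
    ∃ σ : E →ₐ[R] M, ∀ i, σ (v i) = w i := by
  let f : adjoin R (Set.range v) →ₐ[R] M :=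
    ((adjoin R (Set.range w)).val.comp hw.aevalEquivField.toAlgHom).comp hv.1.reprField
  have := hv.isAlgebraic_field
  obtain ⟨σ, hσ⟩ := IntermediateField.exists_algHom_of_splits' (E := E) f fun (s : E) =>
    ⟨(Algebra.IsAlgebraic.isAlgebraic s).isIntegral, IsAlgClosed.splits _⟩
  refine ⟨σ, fun i => ?_⟩
  have h := DFunLike.congr_fun hσ ⟨v i, subset_adjoin R _ ⟨i, rfl⟩⟩
  refine h.trans ?_
  have he : hv.1.reprField ⟨v i, subset_adjoin R _ ⟨i, rfl⟩⟩ =
      algebraMap (MvPolynomial ι R) (FractionRing (MvPolynomial ι R)) (MvPolynomial.X i) := by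
    apply hv.1.aevalEquivField.injective
    refine (AlgEquiv.apply_symm_apply _ _).trans (Subtype.ext ?_)
    rw [AlgebraicIndependent.aevalEquivField_algebraMap_apply_coe, MvPolynomial.aeval_X]
  show ((hw.aevalEquivField (hv.1.reprField ⟨v i, subset_adjoin R _ ⟨i, rfl⟩⟩) :
    adjoin R (Set.range w)) : M) = w i
  rw [he, AlgebraicIndependent.aevalEquivField_algebraMap_apply_coe, MvPolynomial.aeval_X]

/-- A transcendence basis of `ℂ` over a countable subfield is infinite. -/
theorem infinite_basis {R : Type*} [Field R] [Algebra R ℂ] [Countable R] {ι : Type}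
    {v : ι → ℂ} (hv : IsTranscendenceBasis R v) : Infinite ι := by
  by_contra h
  rw [not_infinite_iff_finite] at h
  have h1 := IsAlgClosed.cardinal_le_max_transcendence_basis v hv
  have h2 : ℵ₀ < #ℂ := by
    have := Cardinal.mk_complex
    rw [this]
    exact Cardinal.aleph0_lt_continuum
  refine absurd (le_trans h1 (max_le (max_le ?_ ?_) le_rfl)) (not_le.2 ?_)
  · exact Cardinal.lift_le_aleph0.2 Cardinal.mk_le_aleph0
  · exact Cardinal.lift_le_aleph0.2 Cardinal.mk_le_aleph0
  · exact Cardinal.aleph0_lt_lift.2 h2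

/-- A countable field of characteristic zero embeds into `ℂ`. -/
theorem exists_complex_embedding (R : Type u) [Field R] [CharZero R] [Countable R] :
    Nonempty (R →+* ℂ) := by
  obtain ⟨s, hs⟩ := exists_isTranscendenceBasis ℚ R
  obtain ⟨t, ht⟩ := exists_isTranscendenceBasis ℚ ℂ
  have : Infinite t := infinite_basis ht
  obtain ⟨j⟩ : Nonempty (s ↪ t) := by
    obtain ⟨e⟩ := nonempty_embedding_nat s
    exact ⟨e.trans (Infinite.natEmbedding t)⟩
  obtain ⟨σ, -⟩ := exists_algHom_of_algebraicIndependent hs (ht.1.comp j j.injective)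
  exact ⟨σ.toRingHom⟩

/-- An endomorphism of `ℂ` translating an element transcendental over the base. -/
theorem exists_translate {R : Type*} [Field R] [Algebra R ℂ] {c : ℂ} (hc : Transcendental R c)
    (k : ℕ) : ∃ σ : ℂ →ₐ[R] ℂ, σ c = c + k := by
  classical
  obtain ⟨t, hct, ht⟩ := exists_isTranscendenceBasis_superset (s := {c})
    ((algebraicIndependent_singleton_iff (⟨c, rfl⟩ : ({c} : Set ℂ))).2 hc)
  have hc' : c ∈ t := hct rfl
  set p : MvPolynomial t R := MvPolynomial.X (⟨c, hc'⟩ : t)
  let g : MvPolynomial t R →ₐ[R] MvPolynomial t R := MvPolynomial.aeval fun i =>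
    if i = ⟨c, hc'⟩ then MvPolynomial.X i + (k : MvPolynomial t R) else MvPolynomial.X i
  let g' : MvPolynomial t R →ₐ[R] MvPolynomial t R := MvPolynomial.aeval fun i =>
    if i = ⟨c, hc'⟩ then MvPolynomial.X i - (k : MvPolynomial t R) else MvPolynomial.X i
  have hg : g'.comp g = AlgHom.id R _ := by
    refine MvPolynomial.algHom_ext fun i => ?_
    by_cases hi : i = ⟨c, hc'⟩
    · simp [g, g', hi]
    · simp [g, g', hi]
  have hw : AlgebraicIndependent R
      (fun i : t => if i = ⟨c, hc'⟩ then (i : ℂ) + k else (i : ℂ)) := by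
    rw [algebraicIndependent_iff_injective_aeval]
    have : (MvPolynomial.aeval fun i : t => if i = ⟨c, hc'⟩ then (i : ℂ) + k else (i : ℂ)) =
        (MvPolynomial.aeval ((↑) : t → ℂ)).comp g := by
      refine MvPolynomial.algHom_ext fun i => ?_
      by_cases hi : i = ⟨c, hc'⟩ <;> simp [g, hi]
    rw [this]
    exact (algebraicIndependent_iff_injective_aeval.1 ht.1).comp
      (Function.LeftInverse.injective (g := g') fun x => DFunLike.congr_fun hg x)
  obtain ⟨σ, hσ⟩ := exists_algHom_of_algebraicIndependent ht hw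
  exact ⟨σ, by simpa using hσ ⟨c, hc'⟩⟩

/-- A countable algebraically closed subfield containing a given countable set. -/
theorem exists_countable_subfield {K : Type u} [Field K] [CharZero K] [IsAlgClosed K]
    {T : Set K} (hT : T.Countable) :
    ∃ K₁ : IntermediateField ℚ K, Countable K₁ ∧ IsAlgClosed K₁ ∧ T ⊆ K₁ := by
  let K₀ := adjoin ℚ T
  have h0 : Countable K₀ := by
    rw [← Cardinal.mk_le_aleph0_iff]
    have h := IntermediateField.lift_cardinalMk_adjoin_le ℚ T
    have hT' : #T ≤ ℵ₀ := Cardinal.le_aleph0_iff_set_countable.2 hT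
    simp only [Cardinal.mkRat, Cardinal.lift_aleph0, Cardinal.lift_id'] at h
    refine le_trans (le_trans (by simpa using h)
      (sup_le (sup_le le_rfl (by simpa using hT')) le_rfl)) le_rfl
  refine ⟨(algebraicClosure K₀ K).restrictScalars ℚ, ?_, ?_, fun x hx => ?_⟩
  · show Countable (algebraicClosure K₀ K)
    rw [← Cardinal.mk_le_aleph0_iff]
    refine (Algebra.IsAlgebraic.cardinalMk_le_max K₀ (algebraicClosure K₀ K)).trans ?_
    simp
  · show IsAlgClosed (algebraicClosure K₀ K)
    exact IsAlgClosure.isAlgClosed K₀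
  · exact isAlgebraic_algebraMap (⟨x, subset_adjoin ℚ T hx⟩ : K₀) |> mem_algebraicClosure_iff.2

/-- A monic irreducible equation and finitely many constants are defined over a countable
algebraically closed subfield. -/
theorem exists_countable_model {K : Type u} [Field K] [CharZero K] [IsAlgClosed K] {Φ : K[X][X]}
    (hm : Φ.Monic) (hi : Irreducible Φ) (s : Finset K) :
    ∃ (K₁ : IntermediateField ℚ K) (Φ₁ : K₁[X][X]), Countable K₁ ∧ IsAlgClosed K₁ ∧
      (∀ a ∈ s, a ∈ K₁) ∧ Φ₁.Monic ∧ Irreducible Φ₁ ∧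
      Φ₁.map (mapRingHom (algebraMap K₁ K)) = Φ := by
  classical
  let D : Set K := (⋃ i ∈ Φ.support, ⋃ j ∈ (Φ.coeff i).support, {(Φ.coeff i).coeff j}) ∪ s
  have hD : D.Countable :=
    (Set.Finite.union (Φ.support.finite_toSet.biUnion fun i _ =>
      (Φ.coeff i).support.finite_toSet.biUnion fun j _ => Set.finite_singleton _)
      (Finset.finite_toSet _)).countable
  obtain ⟨K₁, hc₁, ha₁, hD₁⟩ := exists_countable_subfield hD
  have hlift : Φ ∈ lifts (mapRingHom (algebraMap K₁ K)) := by
    rw [lifts_iff_coeff_lifts]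
    intro i
    show Φ.coeff i ∈ Set.range (Polynomial.map (algebraMap K₁ K))
    rw [← coe_mapRingHom, ← RingHom.coe_range, SetLike.mem_coe, mem_map_range]
    intro j
    by_cases hij : (Φ.coeff i).coeff j = 0
    · exact ⟨0, by simp [hij]⟩
    · refine ⟨⟨_, hD₁ (Or.inl ?_)⟩, rfl⟩
      refine Set.mem_biUnion (x := i) ?_ (Set.mem_biUnion (x := j) ?_ rfl)
      · exact mem_support_iff.2 fun h0 => hij (by rw [h0, coeff_zero])
      · exact mem_support_iff.2 hij
  obtain ⟨Φ₁, hΦ₁, -, hm₁⟩ := lifts_and_degree_eq_and_monic hlift hm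
  exact ⟨K₁, Φ₁, hc₁, ha₁, fun a ha => hD₁ (Or.inr (Finset.mem_coe.2 ha)), hm₁,
    Polynomial.Monic.irreducible_of_irreducible_map (mapRingHom (algebraMap K₁ K)) Φ₁ hm₁
      (hΦ₁.symm ▸ hi), hΦ₁⟩

/-- A model of a monic irreducible equation. -/
theorem exists_gen_model {L : Type u} [Field L] {Φ : L[X][X]} (hm : Φ.Monic) (hi : Irreducible Φ) :
    ∃ (E : Type u) (_ : Field E) (_ : Algebra L E), Nonempty (Gen Φ E) := by
  let Q := FractionRing L[X]
  have hirr : Irreducible (Φ.map (algebraMap L[X] Q)) :=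
    (hm.irreducible_iff_irreducible_map_fraction_map).1 hi
  have : Fact (Irreducible (Φ.map (algebraMap L[X] Q))) := ⟨hirr⟩
  let E := AdjoinRoot (Φ.map (algebraMap L[X] Q))
  let x : E := algebraMap Q E (algebraMap L[X] Q X)
  let y : E := AdjoinRoot.root _
  have hx : ∀ p : L[X], aeval x p = algebraMap Q E (algebraMap L[X] Q p) := fun p => by
    have h : (aeval x : L[X] →ₐ[L] E).toRingHom = (algebraMap Q E).comp (algebraMap L[X] Q) := by
      refine Polynomial.ringHom_ext (fun a => ?_) ?_
      · simp [IsScalarTower.algebraMap_apply L Q E, IsScalarTower.algebraMap_apply L L[X] Q]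
      · simp [x]
    exact DFunLike.congr_fun h p
  have hev : ∀ r : L[X][X], pev x y r = AdjoinRoot.mk _ (r.map (algebraMap L[X] Q)) := fun r => by
    rw [← AdjoinRoot.aeval_eq, aeval_map_algebraMap]
    induction r using Polynomial.induction_on' with
    | add p q hp hq => rw [map_add, map_add, hp, hq]
    | monomial n a =>
      rw [← C_mul_X_pow_eq_monomial, map_mul, map_pow, pev_C, pev_X, map_mul, map_pow, aeval_C,
        aeval_X, hx]
      rfl
  have hinj : Function.Injective fun p : L[X] => algebraMap Q E (algebraMap L[X] Q p) :=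
    (algebraMap Q E).injective.comp (IsFractionRing.injective L[X] Q)
  refine ⟨E, inferInstance, inferInstance, ⟨⟨x, y, ?_, ?_, fun z => ?_⟩⟩⟩
  · rw [transcendental_iff_injective]
    intro p q hpq
    exact hinj (by simpa [hx] using hpq)
  · rw [hev, AdjoinRoot.mk_self]
  · obtain ⟨p, rfl⟩ := AdjoinRoot.mk_surjective z
    obtain ⟨b, hb, hp⟩ := IsLocalization.integerNormalization_spec (nonZeroDivisors L[X]) p
    have hb0 : pev x y (C b) ≠ 0 := by
      rw [pev_C, hx]
      exact fun h => nonZeroDivisors.ne_zero hb (hinj (h.trans (by simp)))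
    refine ⟨IsLocalization.integerNormalization (nonZeroDivisors L[X]) p, C b, hb0,
      (eq_div_iff hb0).2 ?_⟩
    rw [hev (IsLocalization.integerNormalization _ p), hp, pev_C, hx, mul_comm, Algebra.smul_def,
      map_mul]
    rfl

/-- An element algebraic over `K (x)` is the root of a nonzero polynomial over `K[x]`. -/
theorem exists_pev_eq_zero {K F : Type*} [Field K] [Field F] [Algebra K F] {x y₀ : F}
    (hy : IsAlgebraic K⟮x⟯ y₀) : ∃ p : K[X][X], p ≠ 0 ∧ pev x y₀ p = 0 := by
  classical
  obtain ⟨p, hp0, hp⟩ : IsAlgebraic (Algebra.adjoin K ({x} : Set F)) y₀ :=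
    isAlgebraic_adjoin_iff.mp hy
  have hmem : ∀ i, ∃ q : K[X], aeval x q = (p.coeff i : F) := fun i =>
    (Algebra.adjoin_singleton_eq_range_aeval K x).le (p.coeff i).2
  choose q hq using hmem
  refine ⟨∑ i ∈ p.support, C (q i) * X ^ i, fun h0 => ?_, ?_⟩
  · obtain ⟨i, hi⟩ := Polynomial.support_nonempty.2 hp0
    have := congrArg (fun r => r.coeff i) h0
    simp [coeff_C_mul, coeff_X_pow, hi] at this
    exact mem_support_iff.1 hi (Subtype.ext (by rw [← hq i, this, map_zero]; rfl))
  · rw [← hp, aeval_def (R := Algebra.adjoin K ({x} : Set F)), eval₂_eq_sum, Polynomial.sum,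
      map_sum]
    refine Finset.sum_congr rfl fun i _ => ?_
    rw [map_mul, map_pow, pev_C, pev_X]
    exact congrArg (· * y₀ ^ i) (hq i)

/-- The elements of `K (x, y)` are quotients of polynomials in `x` and `y`. -/
theorem exists_eq_pev_div {K F : Type*} [Field K] [Field F] [Algebra K F] {x y w : F}
    (hw : w ∈ adjoin K ({x, y} : Set F)) :
    ∃ a b : K[X][X], pev x y b ≠ 0 ∧ w = pev x y a / pev x y b := by
  induction hw using IntermediateField.adjoin_induction with
  | mem w hw =>
    rcases hw with rfl | rfl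
    · exact ⟨C X, 1, by simp, by simp⟩
    · exact ⟨X, 1, by simp, by simp⟩
  | algebraMap a => exact ⟨C (C a), 1, by simp, by simp⟩
  | add u v _ _ hu hv =>
    obtain ⟨a, b, hb, rfl⟩ := hu
    obtain ⟨a', b', hb', rfl⟩ := hv
    exact ⟨a * b' + b * a', b * b', by rw [map_mul]; exact mul_ne_zero hb hb',
      by rw [map_add, map_mul, map_mul, map_mul, div_add_div _ _ hb hb']⟩
  | mul u v _ _ hu hv =>
    obtain ⟨a, b, hb, rfl⟩ := hu
    obtain ⟨a', b', hb', rfl⟩ := hv
    exact ⟨a * a', b * b', by rw [map_mul]; exact mul_ne_zero hb hb',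
      by rw [map_mul, map_mul, div_mul_div_comm]⟩
  | inv u _ hu =>
    obtain ⟨a, b, hb, rfl⟩ := hu
    by_cases ha : pev x y a = 0
    · exact ⟨0, 1, by simp, by simp [ha]⟩
    · exact ⟨b, a, ha, by rw [inv_div]⟩

/-- Every function field has a presentation. -/
theorem exists_gen {K F : Type*} [Field K] [Field F] [Algebra K F] [CharZero K] [IsFF K F] :
    ∃ Φ : K[X][X], Φ.Monic ∧ Irreducible Φ ∧ Nonempty (Gen Φ F) := by
  obtain ⟨x, hx, hfin⟩ := IsFF.exists_transcendental (K := K) (F := F)
  have : CharZero K⟮x⟯ := charZero_of_injective_algebraMap (algebraMap K K⟮x⟯).injective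
  obtain ⟨y₀, hy₀⟩ := Field.exists_primitive_element K⟮x⟯ F
  let : Algebra K[X] F :=
    RingHom.toAlgebra (R := K[X]) (S := F) (aeval x : K[X] →ₐ[K] F).toRingHom
  have halg : algebraMap K[X] F = (aeval x : K[X] →ₐ[K] F).toRingHom :=
    RingHom.algebraMap_toAlgebra _
  have hinj : Function.Injective (algebraMap K[X] F) := by
    rw [halg]; exact transcendental_iff_injective.1 hx
  obtain ⟨p, hp0, hp⟩ := exists_pev_eq_zero (K := K) (x := x) (y₀ := y₀)
    (Algebra.IsAlgebraic.isAlgebraic (R := K⟮x⟯) y₀)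
  have hy : IsAlgebraic K[X] y₀ := ⟨p, hp0, by rw [aeval_def, halg]; exact hp⟩
  obtain ⟨d, hd, hint⟩ := hy.exists_integral_multiple
  have hd' : algebraMap K[X] F d ≠ 0 := (map_ne_zero_iff _ hinj).2 hd
  rw [Algebra.smul_def] at hint
  set y := algebraMap K[X] F d * y₀
  have hev : ∀ p : K[X][X], aeval y p = pev x y p := fun p => by rw [aeval_def, halg]; rfl
  refine ⟨minpoly K[X] y, minpoly.monic hint, minpoly.irreducible hint,
    ⟨⟨x, y, hx, ?_, fun z => ?_⟩⟩⟩
  · rw [← hev, minpoly.aeval]
  refine exists_eq_pev_div ?_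
  have hxm : x ∈ adjoin K ({x, y} : Set F) := subset_adjoin K _ (Set.mem_insert _ _)
  have hym : y ∈ adjoin K ({x, y} : Set F) := subset_adjoin K _ (Set.mem_insert_of_mem _ rfl)
  have hy₀m : y₀ ∈ adjoin K ({x, y} : Set F) := by
    have hdm : algebraMap K[X] F d ∈ adjoin K ({x, y} : Set F) := by
      rw [halg]
      exact aeval_mem_adjoin_singleton K x |> fun h =>
        (adjoin_simple_le_iff.2 hxm) (algebra_adjoin_le_adjoin K _ h)
    have := mul_mem (inv_mem hdm) hym
    rwa [show (algebraMap K[X] F d)⁻¹ * y = y₀ from inv_mul_cancel_left₀ hd' y₀] at this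
  have htop : z ∈ K⟮x⟯⟮y₀⟯ := by rw [hy₀]; trivial
  have hle : K⟮x⟯⟮y₀⟯.restrictScalars K ≤ adjoin K ({x, y} : Set F) := by
    rw [adjoin_adjoin_left, adjoin_le_iff]
    rintro w (rfl | rfl)
    · exact hxm
    · exact hy₀m
  exact hle htop

end FermatAgent.Curve.Jac.Descent
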